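/-
S55 / Program C, package C10 (helper12): the formal dévissage machine, Mathlib only.

Everything is stated for bilinear pairings `P : A →ₗ[k] B →ₗ[k] k` over a field `k`, with the three
plain properties (no new definitions, so that consumers can state them in any model):

* trivial right kernel  ("`α : A → B^∨` is epi", finiteness-free form):
    `∀ b, (∀ a, P a b = 0) → b = 0`
* trivial left kernel   ("`α` is mono"):
    `∀ a, (∀ b, P a b = 0) → a = 0`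
* right surjectivity    ("`B → A^∨` is onto"; implies that `α` is mono, and is equivalent to it
  when `B` is finite-dimensional):
    `∀ φ : A →ₗ[k] k, ∃ b, ∀ a, P a b = φ a`

Main statements:

* `rightKer_of_four` : the four lemma in pairing form (`F1`).
* `leftKer_of_four`  : its mirror image.
* `rightSurj_of_four` : the "mono" half of the five lemma in pairing form.
* `rightKer_of_sum`, `rightSurj_of_sum` : additivity over finite direct sums.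
* `rightSurj_of_leftKer` : conversion for finite-dimensional `B`.
* `pairing_range_nondegenerate` : the finiteness-free top (form on `range j' × range j`).
* `machine` : the abstract descending induction of the dévissage.
-/
import Mathlib.LinearAlgebra.Dual.Lemmas
import Mathlib.LinearAlgebra.FiniteDimensional.Lemmas
import Mathlib.LinearAlgebra.Quotient.Basic
import Mathlib.LinearAlgebra.Isomorphisms

set_option autoImplicit false

open Module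

namespace Fermat.Agent.S55.H12

section LinearAlgebra

variable {k : Type*} [Field k]

/-- A linear functional that vanishes on the kernel of `f` factors through `f` (over a field). -/
theorem exists_factor_of_ker_le {A A' : Type*} [AddCommGroup A] [Module k A]
    [AddCommGroup A'] [Module k A'] (f : A →ₗ[k] A') (ψ : A →ₗ[k] k)
    (h : ∀ a, f a = 0 → ψ a = 0) : ∃ φ : A' →ₗ[k] k, ∀ a, φ (f a) = ψ a := by
  have hker : LinearMap.ker f ≤ LinearMap.ker ψ := fun a ha => h a ha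
  let ψ₀ : (A ⧸ LinearMap.ker f) →ₗ[k] k := (LinearMap.ker f).liftQ ψ hker
  let φ₀ : LinearMap.range f →ₗ[k] k := ψ₀ ∘ₗ (f.quotKerEquivRange).symm.toLinearMap
  obtain ⟨φ, hφ⟩ := LinearMap.exists_extend φ₀
  refine ⟨φ, fun a => ?_⟩
  have h1 : φ (f a) = φ₀ ⟨f a, LinearMap.mem_range_self f a⟩ := by
    rw [← hφ]
    rfl
  rw [h1]
  have h2 : (f.quotKerEquivRange).symm ⟨f a, LinearMap.mem_range_self f a⟩ =
      Submodule.Quotient.mk a := by
    rw [LinearEquiv.symm_apply_eq]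
    rfl
  show ψ₀ ((f.quotKerEquivRange).symm ⟨f a, LinearMap.mem_range_self f a⟩) = ψ a
  rw [h2]
  rfl

variable {A₁ A₂ A₃ A₄ B₁ B₂ B₃ B₄ : Type*}
  [AddCommGroup A₁] [Module k A₁] [AddCommGroup A₂] [Module k A₂]
  [AddCommGroup A₃] [Module k A₃] [AddCommGroup A₄] [Module k A₄]
  [AddCommGroup B₁] [Module k B₁] [AddCommGroup B₂] [Module k B₂]
  [AddCommGroup B₃] [Module k B₃] [AddCommGroup B₄] [Module k B₄]

/-- **The four lemma in pairing form (F1).**  Rows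
`A₁ → A₂ → A₃ → A₄` (exact at `A₃`) and `B₄ → B₃ → B₂ → B₁` (exact at `B₂`, zero composite at
`B₃`), pairings `Pᵢ : Aᵢ × Bᵢ → k` for which the maps are adjoint (the middle square up to a
nonzero scalar).  If `P₁`, `P₃` have trivial right kernel and `P₄` is right surjective, then `P₂`
has trivial right kernel. -/
theorem rightKer_of_four
    (f₁ : A₁ →ₗ[k] A₂) (f₂ : A₂ →ₗ[k] A₃) (f₃ : A₃ →ₗ[k] A₄)
    (g₁ : B₂ →ₗ[k] B₁) (g₂ : B₃ →ₗ[k] B₂) (g₃ : B₄ →ₗ[k] B₃)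
    (P₁ : A₁ →ₗ[k] B₁ →ₗ[k] k) (P₂ : A₂ →ₗ[k] B₂ →ₗ[k] k)
    (P₃ : A₃ →ₗ[k] B₃ →ₗ[k] k) (P₄ : A₄ →ₗ[k] B₄ →ₗ[k] k)
    (hA : ∀ a, f₃ a = 0 → ∃ a', f₂ a' = a)
    (hB : ∀ b, g₁ b = 0 → ∃ b', g₂ b' = b)
    (hB0 : ∀ b, g₂ (g₃ b) = 0)
    (u : k)
    (h1 : ∀ a b, P₂ (f₁ a) b = P₁ a (g₁ b))
    (h2 : ∀ a b, P₃ (f₂ a) b = u * P₂ a (g₂ b))
    (h3 : ∀ a b, P₄ (f₃ a) b = P₃ a (g₃ b))
    (e1 : ∀ b, (∀ a, P₁ a b = 0) → b = 0)
    (e3 : ∀ b, (∀ a, P₃ a b = 0) → b = 0)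
    (s4 : ∀ φ : A₄ →ₗ[k] k, ∃ b, ∀ a, P₄ a b = φ a) :
    ∀ b, (∀ a, P₂ a b = 0) → b = 0 := by
  intro b hb
  have hg1 : g₁ b = 0 := e1 _ fun a => by rw [← h1, hb]
  obtain ⟨b₃, rfl⟩ := hB b hg1
  have hψ : ∀ a, f₃ a = 0 → P₃.flip b₃ a = 0 := by
    intro a ha
    obtain ⟨a', rfl⟩ := hA a ha
    rw [LinearMap.flip_apply, h2, hb, mul_zero]
  obtain ⟨φ, hφ⟩ := exists_factor_of_ker_le f₃ (P₃.flip b₃) hψ
  obtain ⟨b₄, hb₄⟩ := s4 φ
  have hb3 : b₃ - g₃ b₄ = 0 := e3 _ fun a => by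
    rw [map_sub, ← h3, hb₄, hφ, LinearMap.flip_apply, sub_self]
  rw [sub_eq_zero] at hb3
  rw [hb3, hB0]

/-- **The mirror image of F1.**  Rows `A₄ → A₃ → A₂ → A₁` (exact at `A₂`, zero composite at
`A₃`) and `B₁ → B₂ → B₃ → B₄` (exact at `B₃`).  If `P₁`, `P₃` have trivial left kernel and `P₄` is
left surjective, then `P₂` has trivial left kernel. -/
theorem leftKer_of_four
    (f₁ : A₂ →ₗ[k] A₁) (f₂ : A₃ →ₗ[k] A₂) (f₃ : A₄ →ₗ[k] A₃)
    (g₁ : B₁ →ₗ[k] B₂) (g₂ : B₂ →ₗ[k] B₃) (g₃ : B₃ →ₗ[k] B₄)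
    (P₁ : A₁ →ₗ[k] B₁ →ₗ[k] k) (P₂ : A₂ →ₗ[k] B₂ →ₗ[k] k)
    (P₃ : A₃ →ₗ[k] B₃ →ₗ[k] k) (P₄ : A₄ →ₗ[k] B₄ →ₗ[k] k)
    (hB : ∀ b, g₃ b = 0 → ∃ b', g₂ b' = b)
    (hA : ∀ a, f₁ a = 0 → ∃ a', f₂ a' = a)
    (hA0 : ∀ a, f₂ (f₃ a) = 0)
    (u : k)
    (h1 : ∀ a b, P₂ a (g₁ b) = P₁ (f₁ a) b)
    (h2 : ∀ a b, P₃ a (g₂ b) = u * P₂ (f₂ a) b)
    (h3 : ∀ a b, P₄ a (g₃ b) = P₃ (f₃ a) b)
    (e1 : ∀ a, (∀ b, P₁ a b = 0) → a = 0)
    (e3 : ∀ a, (∀ b, P₃ a b = 0) → a = 0)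
    (s4 : ∀ φ : B₄ →ₗ[k] k, ∃ a, ∀ b, P₄ a b = φ b) :
    ∀ a, (∀ b, P₂ a b = 0) → a = 0 :=
  rightKer_of_four g₁ g₂ g₃ f₁ f₂ f₃ P₁.flip P₂.flip P₃.flip P₄.flip hB hA hA0 u
    (fun b a => by simp only [LinearMap.flip_apply]; exact h1 a b)
    (fun b a => by simp only [LinearMap.flip_apply]; exact h2 a b)
    (fun b a => by simp only [LinearMap.flip_apply]; exact h3 a b)
    (fun a ha => e1 a fun b => by simpa using ha b)
    (fun a ha => e3 a fun b => by simpa using ha b)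
    (fun φ => by
      obtain ⟨a, ha⟩ := s4 φ
      exact ⟨a, fun b => by simpa using ha b⟩)

/-- **The other half of the five lemma in pairing form.**  Rows `A₀ → A₁ → A₂ → A₃` (zero
composite at `A₁`, exact at `A₂`) and `B₃ → B₂ → B₁ → B₀` (exact at `B₁`), pairings with adjoint
maps (the middle square up to a nonzero scalar).  If `P₁`, `P₃` are right surjective and `P₀` has
trivial right kernel, then `P₂` is right surjective. -/
theorem rightSurj_of_four {A₀ B₀ : Type*} [AddCommGroup A₀] [Module k A₀]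
    [AddCommGroup B₀] [Module k B₀]
    (f₀ : A₀ →ₗ[k] A₁) (f₁ : A₁ →ₗ[k] A₂) (f₂ : A₂ →ₗ[k] A₃)
    (g₀ : B₁ →ₗ[k] B₀) (g₁ : B₂ →ₗ[k] B₁) (g₂ : B₃ →ₗ[k] B₂)
    (P₀ : A₀ →ₗ[k] B₀ →ₗ[k] k) (P₁ : A₁ →ₗ[k] B₁ →ₗ[k] k)
    (P₂ : A₂ →ₗ[k] B₂ →ₗ[k] k) (P₃ : A₃ →ₗ[k] B₃ →ₗ[k] k)
    (hA0 : ∀ a, f₁ (f₀ a) = 0)
    (hA2 : ∀ a, f₂ a = 0 → ∃ a', f₁ a' = a)
    (hB : ∀ b, g₀ b = 0 → ∃ b', g₁ b' = b)
    (u : k) (hu : u ≠ 0)
    (h0 : ∀ a b, P₁ (f₀ a) b = P₀ a (g₀ b))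
    (h1 : ∀ a b, P₂ (f₁ a) b = u * P₁ a (g₁ b))
    (h2 : ∀ a b, P₃ (f₂ a) b = P₂ a (g₂ b))
    (e0 : ∀ b, (∀ a, P₀ a b = 0) → b = 0)
    (s1 : ∀ φ : A₁ →ₗ[k] k, ∃ b, ∀ a, P₁ a b = φ a)
    (s3 : ∀ φ : A₃ →ₗ[k] k, ∃ b, ∀ a, P₃ a b = φ a) :
    ∀ φ : A₂ →ₗ[k] k, ∃ b, ∀ a, P₂ a b = φ a := by
  intro φ
  obtain ⟨b₁, hb₁⟩ := s1 (φ ∘ₗ f₁)
  have hg0 : g₀ b₁ = 0 := e0 _ fun a => by
    rw [← h0, hb₁, LinearMap.comp_apply, hA0, map_zero]
  obtain ⟨b₂, rfl⟩ := hB b₁ hg0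
  have hψ : ∀ a, f₂ a = 0 → (φ - u⁻¹ • P₂.flip b₂) a = 0 := by
    intro a ha
    obtain ⟨a', rfl⟩ := hA2 a ha
    rw [LinearMap.sub_apply, LinearMap.smul_apply, LinearMap.flip_apply, h1, hb₁,
      LinearMap.comp_apply, smul_eq_mul, ← mul_assoc, inv_mul_cancel₀ hu, one_mul, sub_self]
  obtain ⟨χ, hχ⟩ := exists_factor_of_ker_le f₂ _ hψ
  obtain ⟨b₃, hb₃⟩ := s3 χ
  refine ⟨u⁻¹ • b₂ + g₂ b₃, fun a => ?_⟩
  rw [map_add, map_smul, ← h2, hb₃, hχ, LinearMap.sub_apply, LinearMap.smul_apply,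
    LinearMap.flip_apply, smul_eq_mul]
  ring

/-- **The four lemma, surjective form** (the form used by the top chain `H70.Chain`, where
"`α` epi" is `Function.Surjective P` for `P : A →ₗ B →ₗ k`).  Rows `A₁ → A₂ → A₃ → A₄` (exact at
`A₃`) and `B₄ → B₃ → B₂ → B₁` (exact at `B₂`, zero composite at `B₃`), adjoint maps (middle square
up to a scalar).  If `P₁`, `P₃` are surjective and `P₄` is injective, then `P₂` is surjective. -/
theorem surjective_of_four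
    (f₁ : A₁ →ₗ[k] A₂) (f₂ : A₂ →ₗ[k] A₃) (f₃ : A₃ →ₗ[k] A₄)
    (g₁ : B₂ →ₗ[k] B₁) (g₂ : B₃ →ₗ[k] B₂) (g₃ : B₄ →ₗ[k] B₃)
    (P₁ : A₁ →ₗ[k] B₁ →ₗ[k] k) (P₂ : A₂ →ₗ[k] B₂ →ₗ[k] k)
    (P₃ : A₃ →ₗ[k] B₃ →ₗ[k] k) (P₄ : A₄ →ₗ[k] B₄ →ₗ[k] k)
    (hA : ∀ a, f₃ a = 0 → ∃ a', f₂ a' = a)
    (hB : ∀ b, g₁ b = 0 → ∃ b', g₂ b' = b)
    (hB0 : ∀ b, g₂ (g₃ b) = 0)
    (u : k)
    (h1 : ∀ a b, P₂ (f₁ a) b = P₁ a (g₁ b))
    (h2 : ∀ a b, P₃ (f₂ a) b = u * P₂ a (g₂ b))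
    (h3 : ∀ a b, P₄ (f₃ a) b = P₃ a (g₃ b))
    (s1 : Function.Surjective P₁) (s3 : Function.Surjective P₃) (i4 : Function.Injective P₄) :
    Function.Surjective P₂ := by
  intro φ
  obtain ⟨a₃, ha₃⟩ := s3 (φ ∘ₗ g₂)
  have hf3 : f₃ a₃ = 0 := by
    apply i4
    rw [map_zero]
    ext b
    rw [h3, ha₃, LinearMap.comp_apply, hB0, map_zero, LinearMap.zero_apply]
  obtain ⟨a₂, rfl⟩ := hA a₃ hf3
  have hψ : ∀ b, g₁ b = 0 → (φ - u • P₂ a₂) b = 0 := by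
    intro b hb
    obtain ⟨b', rfl⟩ := hB b hb
    have := congrArg (fun ψ : B₃ →ₗ[k] k => ψ b') ha₃
    simp only [LinearMap.comp_apply] at this
    rw [LinearMap.sub_apply, LinearMap.smul_apply, smul_eq_mul, ← h2, this, sub_self]
  obtain ⟨χ, hχ⟩ := exists_factor_of_ker_le g₁ _ hψ
  obtain ⟨a₁, ha₁⟩ := s1 χ
  refine ⟨u • a₂ + f₁ a₁, ?_⟩
  ext b
  rw [map_add, map_smul, LinearMap.add_apply, LinearMap.smul_apply, h1, ha₁, hχ,
    LinearMap.sub_apply, LinearMap.smul_apply]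
  abel

/-- Additivity, surjective form: `∑ q (r b) = b` and `P (i a) b = P_s a (r b)`. -/
theorem surjective_of_sum {ι : Type*} [Fintype ι] {A B : Type*} [AddCommGroup A] [Module k A]
    [AddCommGroup B] [Module k B] {As Bs : ι → Type*} [∀ s, AddCommGroup (As s)]
    [∀ s, Module k (As s)] [∀ s, AddCommGroup (Bs s)] [∀ s, Module k (Bs s)]
    (i : ∀ s, As s →ₗ[k] A) (q : ∀ s, Bs s →ₗ[k] B) (r : ∀ s, B →ₗ[k] Bs s)
    (P : A →ₗ[k] B →ₗ[k] k) (Ps : ∀ s, As s →ₗ[k] Bs s →ₗ[k] k)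
    (hsum : ∀ b, ∑ s, q s (r s b) = b)
    (hadj : ∀ s a b, P (i s a) b = Ps s a (r s b))
    (h : ∀ s, Function.Surjective (Ps s)) : Function.Surjective P := by
  intro φ
  choose a ha using fun s => h s (φ ∘ₗ q s)
  refine ⟨∑ s, i s (a s), ?_⟩
  ext b
  rw [map_sum, LinearMap.sum_apply]
  conv_rhs => rw [← hsum b, map_sum]
  exact Finset.sum_congr rfl fun s _ => by rw [hadj, ha, LinearMap.comp_apply]

/-- Additivity, injective form: `∑ i (p a) = a` and `P a (q b) = P_s (p a) b`. -/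
theorem injective_of_sum {ι : Type*} [Fintype ι] {A B : Type*} [AddCommGroup A] [Module k A]
    [AddCommGroup B] [Module k B] {As Bs : ι → Type*} [∀ s, AddCommGroup (As s)]
    [∀ s, Module k (As s)] [∀ s, AddCommGroup (Bs s)] [∀ s, Module k (Bs s)]
    (i : ∀ s, As s →ₗ[k] A) (p : ∀ s, A →ₗ[k] As s) (q : ∀ s, Bs s →ₗ[k] B)
    (P : A →ₗ[k] B →ₗ[k] k) (Ps : ∀ s, As s →ₗ[k] Bs s →ₗ[k] k)
    (hsum : ∀ a, ∑ s, i s (p s a) = a)
    (hadj : ∀ s a b, P a (q s b) = Ps s (p s a) b)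
    (h : ∀ s, Function.Injective (Ps s)) : Function.Injective P := by
  rw [injective_iff_map_eq_zero]
  intro a ha
  have hp : ∀ s, p s a = 0 := fun s => by
    apply h s
    rw [map_zero]
    ext b
    rw [← hadj, ha]
    rfl
  rw [← hsum a]
  exact Finset.sum_eq_zero fun s _ => by rw [hp s, map_zero]

/-- Additivity, trivial right kernel: if `B` is a finite "direct sum" of the `B s` (only
`∑ q (r b) = b` is used) and `P (i a) b = P_s a (r b)`, then `P` has trivial right kernel as soon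
as all the `P_s` have. -/
theorem rightKer_of_sum {ι : Type*} [Fintype ι] {A B : Type*} [AddCommGroup A] [Module k A]
    [AddCommGroup B] [Module k B] {As Bs : ι → Type*} [∀ s, AddCommGroup (As s)]
    [∀ s, Module k (As s)] [∀ s, AddCommGroup (Bs s)] [∀ s, Module k (Bs s)]
    (i : ∀ s, As s →ₗ[k] A) (q : ∀ s, Bs s →ₗ[k] B) (r : ∀ s, B →ₗ[k] Bs s)
    (P : A →ₗ[k] B →ₗ[k] k) (Ps : ∀ s, As s →ₗ[k] Bs s →ₗ[k] k)
    (hsum : ∀ b, ∑ s, q s (r s b) = b)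
    (hadj : ∀ s a b, P (i s a) b = Ps s a (r s b))
    (e : ∀ s b, (∀ a, Ps s a b = 0) → b = 0) :
    ∀ b, (∀ a, P a b = 0) → b = 0 := by
  intro b hb
  have hr : ∀ s, r s b = 0 := fun s => e s _ fun a => by rw [← hadj, hb]
  rw [← hsum b]
  exact Finset.sum_eq_zero fun s _ => by rw [hr s, map_zero]

/-- Additivity, right surjectivity: if `A` is a finite "direct sum" of the `A s` (only
`∑ i (p a) = a` is used) and `P a (q b) = P_s (p a) b`, then `P` is right surjective as soon as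
all the `P_s` are. -/
theorem rightSurj_of_sum {ι : Type*} [Fintype ι] {A B : Type*} [AddCommGroup A] [Module k A]
    [AddCommGroup B] [Module k B] {As Bs : ι → Type*} [∀ s, AddCommGroup (As s)]
    [∀ s, Module k (As s)] [∀ s, AddCommGroup (Bs s)] [∀ s, Module k (Bs s)]
    (i : ∀ s, As s →ₗ[k] A) (p : ∀ s, A →ₗ[k] As s) (q : ∀ s, Bs s →ₗ[k] B)
    (P : A →ₗ[k] B →ₗ[k] k) (Ps : ∀ s, As s →ₗ[k] Bs s →ₗ[k] k)
    (hsum : ∀ a, ∑ s, i s (p s a) = a)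
    (hadj : ∀ s a b, P a (q s b) = Ps s (p s a) b)
    (h : ∀ s, ∀ φ : As s →ₗ[k] k, ∃ b, ∀ a, Ps s a b = φ a) :
    ∀ φ : A →ₗ[k] k, ∃ b, ∀ a, P a b = φ a := by
  intro φ
  choose b hb using fun s => h s (φ ∘ₗ i s)
  refine ⟨∑ s, q s (b s), fun a => ?_⟩
  rw [map_sum]
  conv_rhs => rw [← hsum a, map_sum]
  exact Finset.sum_congr rfl fun s _ => by rw [hadj, hb, LinearMap.comp_apply]

/-- Right surjectivity implies trivial left kernel. -/
theorem leftKer_of_rightSurj {A B : Type*} [AddCommGroup A] [Module k A]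
    [AddCommGroup B] [Module k B] (P : A →ₗ[k] B →ₗ[k] k)
    (h : ∀ φ : A →ₗ[k] k, ∃ b, ∀ a, P a b = φ a) :
    ∀ a, (∀ b, P a b = 0) → a = 0 := by
  intro a ha
  rw [← Module.forall_dual_apply_eq_zero_iff k a]
  intro φ
  obtain ⟨b, hb⟩ := h φ
  rw [← hb, ha]

/-- For finite-dimensional `B`, trivial left kernel implies right surjectivity. -/
theorem rightSurj_of_leftKer {A B : Type*} [AddCommGroup A] [Module k A]
    [AddCommGroup B] [Module k B] [FiniteDimensional k B] (P : A →ₗ[k] B →ₗ[k] k)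
    (h : ∀ a, (∀ b, P a b = 0) → a = 0) :
    ∀ φ : A →ₗ[k] k, ∃ b, ∀ a, P a b = φ a := by
  have hinj : Function.Injective P := by
    rw [injective_iff_map_eq_zero]
    intro a ha
    exact h a fun b => by rw [ha]; rfl
  have hflip : P.flip = P.dualMap ∘ₗ Module.Dual.eval k B := by
    ext b a
    rfl
  have hsurj : Function.Surjective P.flip := by
    rw [hflip]
    exact (LinearMap.dualMap_surjective_of_injective hinj).comp
      (Module.bijective_dual_eval k B).2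
  intro φ
  obtain ⟨b, hb⟩ := hsurj φ
  exact ⟨b, fun a => by rw [← hb]; rfl⟩

/-- **The finiteness-free top.**  For `j : A → B`, `j' : A' → B'` and pairings
`P : A × B' → k`, `P' : B × A' → k` with `P x (j' y) = P' (j x) y`, such that `P'` has trivial left
kernel and `P` has trivial right kernel, the form `(j' y, j x) ↦ P x (j' y)` on
`range j' × range j` is well defined and nondegenerate on both sides. -/
theorem exists_form_on_ranges {A B A' B' : Type*} [AddCommGroup A] [Module k A]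
    [AddCommGroup B] [Module k B] [AddCommGroup A'] [Module k A'] [AddCommGroup B'] [Module k B']
    (j : A →ₗ[k] B) (j' : A' →ₗ[k] B')
    (P : A →ₗ[k] B' →ₗ[k] k) (P' : B →ₗ[k] A' →ₗ[k] k)
    (hadj : ∀ x y, P x (j' y) = P' (j x) y)
    (hP' : ∀ b, (∀ y, P' b y = 0) → b = 0)
    (hP : ∀ b', (∀ x, P x b' = 0) → b' = 0) :
    ∃ Bil : LinearMap.range j' →ₗ[k] LinearMap.range j →ₗ[k] k,
      (∀ y, (∀ x, Bil y x = 0) → y = 0) ∧ (∀ x, (∀ y, Bil y x = 0) → x = 0) ∧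
        ∀ x y, Bil ⟨j' y, LinearMap.mem_range_self j' y⟩ ⟨j x, LinearMap.mem_range_self j x⟩ =
          P x (j' y) := by
  -- `γ y = P' (·) y` restricted to `range j`
  let γ : A' →ₗ[k] LinearMap.range j →ₗ[k] k :=
    (LinearMap.lcomp k k (LinearMap.range j).subtype) ∘ₗ P'.flip
  have hγ : ∀ y x, γ y ⟨j x, LinearMap.mem_range_self j x⟩ = P' (j x) y := fun _ _ => rfl
  have hker : LinearMap.ker j' ≤ LinearMap.ker γ := by
    intro y hy
    rw [LinearMap.mem_ker] at hy ⊢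
    ext ⟨x', x, rfl⟩
    rw [hγ, ← hadj, hy, map_zero]
    rfl
  let Bil : LinearMap.range j' →ₗ[k] LinearMap.range j →ₗ[k] k :=
    (LinearMap.ker j').liftQ γ hker ∘ₗ (j'.quotKerEquivRange).symm.toLinearMap
  have hBil : ∀ x y, Bil ⟨j' y, LinearMap.mem_range_self j' y⟩
      ⟨j x, LinearMap.mem_range_self j x⟩ = P x (j' y) := by
    intro x y
    have h2 : (j'.quotKerEquivRange).symm ⟨j' y, LinearMap.mem_range_self j' y⟩ =
        Submodule.Quotient.mk y := by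
      rw [LinearEquiv.symm_apply_eq]
      rfl
    show (LinearMap.ker j').liftQ γ hker
      ((j'.quotKerEquivRange).symm ⟨j' y, LinearMap.mem_range_self j' y⟩) _ = _
    rw [h2, hadj]
    rfl
  refine ⟨Bil, ?_, ?_, hBil⟩
  · rintro ⟨y', y, rfl⟩ hy
    have : j' y = 0 := hP _ fun x => by
      rw [← hBil]
      exact hy ⟨j x, LinearMap.mem_range_self j x⟩
    exact Subtype.ext this
  · rintro ⟨x', x, rfl⟩ hx
    have : j x = 0 := hP' _ fun y => by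
      rw [← hadj, ← hBil]
      exact hx ⟨j' y, LinearMap.mem_range_self j' y⟩
    exact Subtype.ext this

end LinearAlgebra

section Induction

/-- **The abstract dévissage.**  `E i X` stands for "the pairing `Hⁱ_c(X) × H³⁻ⁱ(X') → k` has
trivial right kernel", `Sj i X` for "it is right surjective".  Inputs: every object is a quotient
of a free one (`hpres`), the four lemma (`hfour`, from `rightKer_of_four`), the start `E 3` for
all objects and the base cases for free objects.  Output: `E 1` and `E 2` for all objects. -/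
theorem machine {Obj : Type*} (SES : Obj → Obj → Obj → Prop) (Free : Obj → Prop)
    (E Sj : ℕ → Obj → Prop)
    (hpres : ∀ M, ∃ K F, Free F ∧ SES K F M)
    (hfour : ∀ i K F M, SES K F M → E i F → E (i + 1) K → Sj (i + 1) F → E i M)
    (hstart : ∀ K, E 3 K)
    (hE1 : ∀ F, Free F → E 1 F) (hE2 : ∀ F, Free F → E 2 F)
    (hS2 : ∀ F, Free F → Sj 2 F) (hS3 : ∀ F, Free F → Sj 3 F) :
    ∀ M, E 1 M ∧ E 2 M := by
  have h2 : ∀ M, E 2 M := by
    intro M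
    obtain ⟨K, F, hF, hs⟩ := hpres M
    exact hfour 2 K F M hs (hE2 F hF) (hstart K) (hS3 F hF)
  intro M
  refine ⟨?_, h2 M⟩
  obtain ⟨K, F, hF, hs⟩ := hpres M
  exact hfour 1 K F M hs (hE1 F hF) (h2 K) (hS2 F hF)

end Induction

end Fermat.Agent.S55.H12
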