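/-
S55 / Program C, package C10 (helper12): representation-theoretic part of the dévissage.

* `dualHom p f : D p Y ⟶ D p X` : the transpose of `f : X ⟶ Y` (functorial, additive);
* `IsSES p ι π` : short exact sequences of representations in elementwise form; `IsSES.dual`;
* `LevelFieldStatement p S` (proved by helper43: `H43.levelFieldStatement`);
* admissibility of subobjects, of `baseRep p L` and of finite direct sums;
* `orbitHom`, `kerRep`, `kerHom`;
* `exists_presentation` : every admissible `M` is a quotient of a finite direct sum `F` of copies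
  of `baseRep p L` for a level field `L`, with `F` admissible.
-/
import Fermat.Agent.S55.H70.Chain
import Fermat.Agent.S55.H12.Machine

set_option autoImplicit false

open CategoryTheory Module groupCohomology ExtCitation

noncomputable section

namespace Fermat.Agent.S55.H12

open Fermat.Agent.S55.H70

variable (p : ℕ) [Fact p.Prime] (S : Finset Nat.Primes)

/-- The transpose `f' : Y' ⟶ X'` of a morphism of representations `f : X ⟶ Y`
(`X' = X.dualTwist (cycloChar p)`). -/
def dualHom {X Y : Rep.{0, 0, 0} (ZMod p) GQ} (f : X ⟶ Y) : D p Y ⟶ D p X :=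
  Rep.ofHom
    { toLinearMap := f.hom.toLinearMap.dualMap
      isIntertwining' := fun g => by
        ext φ x
        have h := Rep.hom_comm_apply f g⁻¹ x
        simp only [LinearMap.coe_comp, Function.comp_apply, LinearMap.dualMap_apply]
        show (cycloChar p g : ZMod p) • φ (Y.ρ g⁻¹ (f.hom x)) =
          (cycloChar p g : ZMod p) • φ (f.hom (X.ρ g⁻¹ x))
        rw [h] }

theorem dualHom_apply {X Y : Rep.{0, 0, 0} (ZMod p) GQ} (f : X ⟶ Y) (φ : D p Y) (x : X) :
    ((dualHom p f).hom φ : Module.Dual (ZMod p) X) x = (φ : Module.Dual (ZMod p) Y) (f.hom x) :=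
  rfl

/-- A short exact sequence of representations, in elementwise form. -/
structure IsSES {K F M : Rep.{0, 0, 0} (ZMod p) GQ} (ι : K ⟶ F) (π : F ⟶ M) : Prop where
  inj : Function.Injective ι.hom
  zero : ∀ x, π.hom (ι.hom x) = 0
  exact : ∀ y, π.hom y = 0 → ∃ x, ι.hom x = y
  surj : Function.Surjective π.hom

/-- (C0, helper43 P4') Every admissible module is trivial on the absolute Galois group of a level
field (finite Galois over `ℚ`, unramified outside `S`, containing `μ_p`). -/
def LevelFieldStatement : Prop :=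
  ∀ M : Rep.{0, 0, 0} (ZMod p) GQ, IsAdm p S M →
    ∃ L : IntermediateField ℚ (AlgebraicClosure ℚ), IsLevelField p S L ∧
      ∀ s ∈ L.fixingSubgroup, ∀ m : M, M.ρ s m = m

/-! ### Admissibility lemmas -/


/-- A finite-dimensional module on which the absolute Galois group of a level field acts
trivially is admissible. -/
theorem isAdm_of_level (X : Rep.{0, 0, 0} (ZMod p) GQ) [FiniteDimensional (ZMod p) X]
    (L : IntermediateField ℚ (AlgebraicClosure ℚ)) (hL : IsLevelField p S L)
    (h : ∀ s ∈ L.fixingSubgroup, ∀ m : X, X.ρ s m = m) : IsAdm p S X := by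
  refine ⟨inferInstance, fun m => ⟨L, hL.1.1, fun s hs => h s hs m⟩, fun q hq A hA g hg => ?_⟩
  ext m
  exact h g (hL.1.2 q hq A hA hg) m

/-- A subobject of an admissible module is admissible. -/
theorem isAdm_of_injective {K F : Rep.{0, 0, 0} (ZMod p) GQ} (ι : K ⟶ F)
    (hι : Function.Injective ι.hom) (hF : IsAdm p S F) : IsAdm p S K := by
  obtain ⟨hfd, hsm, hur⟩ := hF
  refine ⟨?_, fun m => ?_, fun q hq A hA g hg => ?_⟩
  · exact FiniteDimensional.of_injective ι.hom.toLinearMap hι
  · obtain ⟨E, hE, hE'⟩ := hsm (ι.hom m)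
    refine ⟨E, hE, fun s hs => hι ?_⟩
    rw [Rep.hom_comm_apply, hE' s hs]
  · ext m
    apply hι
    rw [Rep.hom_comm_apply, hur q hq A hA g hg]
    rfl



/-- `AlgebraicClosure ℚ` is Galois over `ℚ` for the default `ℚ`-algebra structure. -/
theorem isGalois_algClosure_rat : IsGalois ℚ (AlgebraicClosure ℚ) := by
  have h : (DivisionRing.toRatAlgebra : Algebra ℚ (AlgebraicClosure ℚ)) =
      AlgebraicClosure.instAlgebra ℚ := Subsingleton.elim _ _
  rw [h]
  exact @IsAlgClosure.isGalois ℚ (AlgebraicClosure ℚ) _ _ (AlgebraicClosure.instAlgebra ℚ)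
    inferInstance _

theorem normal_fixingSubgroup_level (L : IntermediateField ℚ (AlgebraicClosure ℚ))
    (hL : IsLevelField p S L) : (L.fixingSubgroup).Normal := by
  have hgal := isGalois_algClosure_rat
  have hgalL := hL.2.1
  have e : (DivisionRing.toRatAlgebra : Algebra ℚ L) = L.algebra' := Subsingleton.elim _ _
  rw [e] at hgalL
  exact IsGalois.fixingSubgroup_normal_of_isGalois L

/-- The absolute Galois group of a level field acts trivially on `baseRep p L`. -/
theorem baseRep_trivial (L : IntermediateField ℚ (AlgebraicClosure ℚ)) (hL : IsLevelField p S L)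
    (s : GQ) (hs : s ∈ L.fixingSubgroup) (m : baseRep p L) : (baseRep p L).ρ s m = m := by
  have hgal : IsGalois ℚ (AlgebraicClosure ℚ) := isGalois_algClosure_rat
  have hN : (L.fixingSubgroup).Normal := normal_fixingSubgroup_level p S L hL
  induction m using MonoidAlgebra.induction_linear with
  | zero => exact map_zero _
  | add x y hx hy => rw [map_add, hx, hy]
  | single c r =>
    show Representation.ofMulAction (ZMod p) GQ (GQ ⧸ L.fixingSubgroup) s
      (MonoidAlgebra.single c r) = _
    rw [Representation.ofMulAction_single]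
    congr 1
    induction c using QuotientGroup.induction_on with
    | H g =>
      show ((s * g : GQ) : GQ ⧸ L.fixingSubgroup) = g
      rw [QuotientGroup.eq]
      have : (s * g)⁻¹ * g = g⁻¹ * s⁻¹ * g := by group
      rw [this]
      exact hN.conj_mem' _ (inv_mem hs) g

theorem finite_quotient_level (L : IntermediateField ℚ (AlgebraicClosure ℚ))
    (hL : IsLevelField p S L) : Finite (GQ ⧸ L.fixingSubgroup) := by
  have hfd := hL.1.1
  have hgal : IsGalois ℚ (AlgebraicClosure ℚ) := isGalois_algClosure_rat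
  have h := IntermediateField.finrank_eq_fixingSubgroup_index (F := ℚ) (E' := AlgebraicClosure ℚ) L
  have hne : L.fixingSubgroup.index ≠ 0 := by
    rw [← h]
    exact Nat.pos_iff_ne_zero.mp Module.finrank_pos
  have : (L.fixingSubgroup).FiniteIndex := ⟨hne⟩
  exact Subgroup.finite_quotient_of_finiteIndex

instance finiteDimensional_baseRep (L : IntermediateField ℚ (AlgebraicClosure ℚ))
    [Finite (GQ ⧸ L.fixingSubgroup)] : FiniteDimensional (ZMod p) (baseRep p L) := by
  have : FiniteDimensional (ZMod p) ((GQ ⧸ L.fixingSubgroup) →₀ ZMod p) := inferInstance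
  exact Module.Finite.equiv (MonoidAlgebra.coeffLinearEquiv (ZMod p)).symm

/-! ### Orbit maps and kernels -/


/-- The linear map `k[H] → M` attached to a function `H → M`. -/
def liftLin {k H M : Type} [Field k] [AddCommGroup M] [Module k M] (v : H → M) :
    MonoidAlgebra k H →ₗ[k] M :=
  Finsupp.linearCombination k v ∘ₗ (MonoidAlgebra.coeffLinearEquiv k).toLinearMap

theorem liftLin_single {k H M : Type} [Field k] [AddCommGroup M] [Module k M] (v : H → M)
    (h : H) (r : k) : liftLin v (MonoidAlgebra.single h r) = r • v h := by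
  simp [liftLin]

/-- The orbit map `G/U → M`, `gU ↦ g m`, for `m` fixed by `U`. -/
def orbitFun (M : Rep.{0, 0, 0} (ZMod p) GQ) (U : Subgroup GQ)
    (m : M) (hm : ∀ s ∈ U, M.ρ s m = m) : GQ ⧸ U → M :=
  fun c => Quotient.liftOn' c (fun g => M.ρ g m) (by
    intro a b hab
    rw [QuotientGroup.leftRel_apply] at hab
    have : b = a * (a⁻¹ * b) := by group
    show M.ρ a m = M.ρ b m
    rw [this, map_mul, Module.End.mul_apply, hm _ hab])

theorem orbitFun_mk (M : Rep.{0, 0, 0} (ZMod p) GQ) (U : Subgroup GQ)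
    (m : M) (hm : ∀ s ∈ U, M.ρ s m = m) (g : GQ) :
    orbitFun p M U m hm (g : GQ ⧸ U) = M.ρ g m := rfl

/-- The morphism `𝔽_p[G/U] ⟶ M`, `[gU] ↦ g m`, for `m` fixed by `U`. -/
def orbitHom (M : Rep.{0, 0, 0} (ZMod p) GQ) (U : Subgroup GQ)
    (m : M) (hm : ∀ s ∈ U, M.ρ s m = m) :
    Rep.ofMulAction (ZMod p) GQ (GQ ⧸ U) ⟶ M :=
  Rep.ofHom
    { toLinearMap := liftLin (orbitFun p M U m hm)
      isIntertwining' := fun g => by
        apply MonoidAlgebra.lhom_ext'
        intro c
        ext
        simp only [LinearMap.coe_comp, Function.comp_apply, MonoidAlgebra.lsingle_apply]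
        rw [Representation.ofMulAction_single, liftLin_single, liftLin_single, one_smul, one_smul]
        induction c using QuotientGroup.induction_on with
        | H h =>
          show orbitFun p M U m hm ((g * h : GQ) : GQ ⧸ U) = M.ρ g (orbitFun p M U m hm (h : GQ ⧸ U))
          rw [orbitFun_mk, orbitFun_mk, map_mul, Module.End.mul_apply] }

theorem orbitHom_single_one (M : Rep.{0, 0, 0} (ZMod p) GQ) (U : Subgroup GQ)
    (m : M) (hm : ∀ s ∈ U, M.ρ s m = m) :
    (orbitHom p M U m hm).hom (MonoidAlgebra.single ((1 : GQ) : GQ ⧸ U) (1 : ZMod p)) = m := by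
  show liftLin (orbitFun p M U m hm) (MonoidAlgebra.single ((1 : GQ) : GQ ⧸ U) (1 : ZMod p)) = m
  rw [liftLin_single, one_smul, orbitFun_mk, map_one]
  rfl

/-- The kernel of a morphism of representations, as a representation on the kernel submodule. -/
def kerRep {F M : Rep.{0, 0, 0} (ZMod p) GQ} (π : F ⟶ M) : Rep.{0, 0, 0} (ZMod p) GQ :=
  Rep.of (k := ZMod p) (G := GQ) (X := LinearMap.ker π.hom.toLinearMap)
    { toFun := fun g => (F.ρ g).restrict (p := LinearMap.ker π.hom.toLinearMap)
        (q := LinearMap.ker π.hom.toLinearMap) (fun x hx => by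
          rw [LinearMap.mem_ker] at hx ⊢
          have := Rep.hom_comm_apply π g x
          show π.hom (F.ρ g x) = 0
          rw [this]
          have hx' : π.hom x = 0 := hx
          rw [hx', map_zero])
      map_one' := by
        ext x
        simp
      map_mul' := fun g h => by
        ext x
        simp }

/-- The inclusion of the kernel. -/
def kerHom {F M : Rep.{0, 0, 0} (ZMod p) GQ} (π : F ⟶ M) : kerRep p π ⟶ F :=
  Rep.ofHom
    { toLinearMap := (LinearMap.ker π.hom.toLinearMap).subtype
      isIntertwining' := fun g => by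
        ext x
        rfl }

variable {p S}

/-! ### The transpose -/

theorem dualHom_id (X : Rep.{0, 0, 0} (ZMod p) GQ) : dualHom p (𝟙 X) = 𝟙 (D p X) := by
  apply Rep.hom_ext
  ext φ x
  rfl

theorem dualHom_comp {X Y Z : Rep.{0, 0, 0} (ZMod p) GQ} (f : X ⟶ Y) (g : Y ⟶ Z) :
    dualHom p (f ≫ g) = dualHom p g ≫ dualHom p f := by
  apply Rep.hom_ext
  ext φ x
  rfl

theorem dualHom_add {X Y : Rep.{0, 0, 0} (ZMod p) GQ} (f g : X ⟶ Y) :
    dualHom p (f + g) = dualHom p f + dualHom p g := by
  apply Rep.hom_ext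
  ext φ x
  show (φ : Module.Dual (ZMod p) Y) ((f + g).hom x) = _
  rw [Rep.add_hom]
  exact map_add (φ : Module.Dual (ZMod p) Y) (f.hom x) (g.hom x)

theorem dualHom_zero {X Y : Rep.{0, 0, 0} (ZMod p) GQ} :
    dualHom p (0 : X ⟶ Y) = 0 := by
  have h := dualHom_add (p := p) (0 : X ⟶ Y) 0
  rw [add_zero] at h
  exact left_eq_add.mp h

theorem dualHom_sum {X Y : Rep.{0, 0, 0} (ZMod p) GQ} {ι : Type} (s : Finset ι)
    (f : ι → (X ⟶ Y)) : dualHom p (∑ i ∈ s, f i) = ∑ i ∈ s, dualHom p (f i) := by
  classical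
  induction s using Finset.induction with
  | empty => simp [dualHom_zero]
  | insert a s ha h => rw [Finset.sum_insert ha, Finset.sum_insert ha, dualHom_add, h]

/-- The dual of a short exact sequence is short exact. -/
theorem IsSES.dual {K F M : Rep.{0, 0, 0} (ZMod p) GQ} {ι : K ⟶ F} {π : F ⟶ M}
    (h : IsSES p ι π) : IsSES p (dualHom p π) (dualHom p ι) where
  inj := by
    intro φ ψ hφψ
    apply LinearMap.ext
    intro m
    obtain ⟨x, rfl⟩ := h.surj m
    have := congrArg (fun χ : D p F => (χ : Module.Dual (ZMod p) F) x) hφψ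
    exact this
  zero := by
    intro φ
    apply LinearMap.ext
    intro x
    show (φ : Module.Dual (ZMod p) M) (π.hom (ι.hom x)) = 0
    rw [h.zero, map_zero]
  exact := by
    intro ψ hψ
    have hk : ∀ a, π.hom.toLinearMap a = 0 → (ψ : Module.Dual (ZMod p) F) a = 0 := by
      intro a ha
      obtain ⟨x, rfl⟩ := h.exact a ha
      have := congrArg (fun χ : D p K => (χ : Module.Dual (ZMod p) K) x) hψ
      exact this
    obtain ⟨φ, hφ⟩ := exists_factor_of_ker_le π.hom.toLinearMap (ψ : Module.Dual (ZMod p) F) hk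
    refine ⟨φ, ?_⟩
    apply LinearMap.ext
    intro a
    exact hφ a
  surj := by
    intro ψ
    obtain ⟨r, hr⟩ := LinearMap.exists_leftInverse_of_injective ι.hom.toLinearMap
      (LinearMap.ker_eq_bot.mpr h.inj)
    refine ⟨(ψ : Module.Dual (ZMod p) K) ∘ₗ r, ?_⟩
    apply LinearMap.ext
    intro x
    show (ψ : Module.Dual (ZMod p) K) (r (ι.hom x)) = _
    have := congrArg (fun χ : K →ₗ[ZMod p] K => χ x) hr
    simp only [LinearMap.coe_comp, Function.comp_apply, LinearMap.id_coe, id_eq] at this
    exact congrArg (ψ : Module.Dual (ZMod p) K) this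

/-- Kernel and surjection form a short exact sequence. -/
theorem isSES_kerHom {F M : Rep.{0, 0, 0} (ZMod p) GQ} (π : F ⟶ M)
    (hπ : Function.Surjective π.hom) : IsSES p (kerHom p π) π where
  inj := Subtype.val_injective
  zero := fun x => x.2
  exact := fun y hy => ⟨⟨y, hy⟩, rfl⟩
  surj := hπ

/-! ### The resolution -/

/-- A finite direct sum of modules on which `U` acts trivially is acted on trivially by `U`;
elementwise form of `∑ prj ≫ inc = 𝟙`. -/
theorem total_apply {ι : Type} [Fintype ι] {F : Rep.{0, 0, 0} (ZMod p) GQ}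
    {X : ι → Rep.{0, 0, 0} (ZMod p) GQ} (inc : ∀ s, X s ⟶ F) (prj : ∀ s, F ⟶ X s)
    (htot : ∑ s, prj s ≫ inc s = 𝟙 F) (x : F) : ∑ s, (inc s).hom ((prj s).hom x) = x := by
  have h := congrArg (fun f : F ⟶ F => f.hom x) htot
  simp only [Rep.sum_hom, Rep.hom_comp, Rep.hom_id] at h
  rw [Representation.IntertwiningMap.sum_apply] at h
  exact h


/-- A finite direct sum of representations on which `U` acts trivially. -/
theorem trivial_of_total {ι : Type} [Fintype ι] {F : Rep.{0, 0, 0} (ZMod p) GQ}
    {X : ι → Rep.{0, 0, 0} (ZMod p) GQ} (inc : ∀ s, X s ⟶ F) (prj : ∀ s, F ⟶ X s)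
    (htot : ∑ s, prj s ≫ inc s = 𝟙 F) (g : GQ) (hg : ∀ s (m : X s), (X s).ρ g m = m) (x : F) :
    F.ρ g x = x := by
  conv_lhs => rw [← total_apply inc prj htot x]
  rw [map_sum]
  conv_rhs => rw [← total_apply inc prj htot x]
  refine Finset.sum_congr rfl fun s _ => ?_
  rw [← Rep.hom_comm_apply, hg]

/-- A finite direct sum of finite-dimensional representations is finite-dimensional. -/
theorem finiteDimensional_of_total {ι : Type} [Fintype ι] {F : Rep.{0, 0, 0} (ZMod p) GQ}
    {X : ι → Rep.{0, 0, 0} (ZMod p) GQ} (inc : ∀ s, X s ⟶ F) (prj : ∀ s, F ⟶ X s)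
    (htot : ∑ s, prj s ≫ inc s = 𝟙 F) [∀ s, FiniteDimensional (ZMod p) (X s)] :
    FiniteDimensional (ZMod p) F := by
  refine FiniteDimensional.of_injective
    (LinearMap.pi fun s => (prj s).hom.toLinearMap : F →ₗ[ZMod p] (∀ s, X s)) ?_
  rw [injective_iff_map_eq_zero]
  intro x hx
  rw [← total_apply inc prj htot x]
  refine Finset.sum_eq_zero fun s _ => ?_
  have h := congrFun hx s
  have h' : (prj s).hom x = 0 := h
  rw [h', map_zero]


/-- **The free presentation.**  Every admissible module is a quotient of an admissible finite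
direct sum of copies of `baseRep p L`, for a level field `L`. -/
theorem exists_presentation (hL : LevelFieldStatement p S) (M : Rep.{0, 0, 0} (ZMod p) GQ)
    (hM : IsAdm p S M) :
    ∃ L : IntermediateField ℚ (AlgebraicClosure ℚ), IsLevelField p S L ∧
      ∃ (n : ℕ) (F : Rep.{0, 0, 0} (ZMod p) GQ) (inc : Fin n → (baseRep p L ⟶ F))
        (prj : Fin n → (F ⟶ baseRep p L)) (π : F ⟶ M),
        ∑ s, prj s ≫ inc s = 𝟙 F ∧ IsAdm p S F ∧ Function.Surjective π.hom := by
  obtain ⟨L, hLf, htriv⟩ := hL M hM
  refine ⟨L, hLf, ?_⟩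
  have hMfd := hM.1
  have hfin : Finite (GQ ⧸ L.fixingSubgroup) := finite_quotient_level p S L hLf
  obtain ⟨n, b, hb⟩ := Module.Finite.exists_fin (R := ZMod p) (M := M)
  have hbp : Limits.HasFiniteBiproducts (Rep.{0, 0, 0} (ZMod p) GQ) :=
    Abelian.hasFiniteBiproducts
  let X : Fin n → Rep.{0, 0, 0} (ZMod p) GQ := fun _ => baseRep p L
  let F : Rep.{0, 0, 0} (ZMod p) GQ := ⨁ X
  let inc : ∀ s, X s ⟶ F := fun s => Limits.biproduct.ι X s
  let prj : ∀ s, F ⟶ X s := fun s => Limits.biproduct.π X s
  have htot : ∑ s, prj s ≫ inc s = 𝟙 F := Limits.biproduct.total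
  let φ : ∀ s, X s ⟶ M := fun s =>
    orbitHom p M L.fixingSubgroup (b s) (fun g hg => htriv g hg (b s))
  let π : F ⟶ M := Limits.biproduct.desc φ
  have hπ : Function.Surjective π.hom := by
    have hr : LinearMap.range π.hom.toLinearMap = ⊤ := by
      rw [eq_top_iff, ← hb, Submodule.span_le]
      rintro _ ⟨s, rfl⟩
      refine ⟨(inc s).hom (MonoidAlgebra.single ((1 : GQ) : GQ ⧸ L.fixingSubgroup) (1 : ZMod p)),
        ?_⟩
      have h1 : inc s ≫ π = φ s := Limits.biproduct.ι_desc φ s
      have h2 := congrArg (fun f : X s ⟶ M => f.hom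
        (MonoidAlgebra.single ((1 : GQ) : GQ ⧸ L.fixingSubgroup) (1 : ZMod p))) h1
      simp only [Rep.hom_comp] at h2
      exact h2.trans (orbitHom_single_one p M L.fixingSubgroup (b s) _)
    intro m
    have : m ∈ LinearMap.range π.hom.toLinearMap := hr ▸ Submodule.mem_top
    exact this
  have hXfd : ∀ s, FiniteDimensional (ZMod p) (X s) := fun _ => finiteDimensional_baseRep p L
  have hFfd : FiniteDimensional (ZMod p) F := finiteDimensional_of_total inc prj htot
  have hF : IsAdm p S F := isAdm_of_level p S F L hLf fun g hg x =>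
    trivial_of_total inc prj htot g (fun s m => baseRep_trivial p S L hLf g hg m) x
  exact ⟨n, F, inc, prj, π, htot, hF, hπ⟩

end Fermat.Agent.S55.H12
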