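/-
S55 / Program C, package C10 (helper12), leaf CD of Route R:
"`H²(G_S, -)` preserves surjections of admissible modules" (`cd_p G_S ≤ 2`).

This file: DEFINITIONS and LEAF STATEMENTS only.  The chain is

  H3CoindStatement p S                      (arithmetic: C9b (S1d) + Shapiro in degree 3)
    + FixedVectorStatement                  (p-groups have fixed vectors; Mathlib only)
    + CoindExactStatement                   (coinduction from a subgroup is exact; Mathlib only)
    + CoindAdmStatement p S                 (coinduction preserves admissibility)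
    + CoindRetractStatement p               (K is a retract of Coind Res K, index prime to p)
    + SylowFieldStatement p S               (the fixed field of a p-Sylow subgroup of Gal(L/ℚ))
    ⟹ H3VanishingStatement p S             (`H³(G_S, K) = 0` for all admissible `K`)
    ⟹ (CD) for `H43.H2SMap`                (assembled in `H12.CD`).

`H³(G_S, K)` is `H49.HS S K 3`, the cohomology of the complex of level-`S`-constant cochains.
-/
import Fermat.Agent.S55.H12.Resolution
import Fermat.Agent.S55.H49.LevelDefs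
import Mathlib.RepresentationTheory.Coinduced

set_option autoImplicit false

open CategoryTheory Module groupCohomology ExtCitation

noncomputable section

namespace Fermat.Agent.S55.H12

open Fermat.Agent.S55.H70

/-- `H³(G_S, K) = 0` (level-`S`-constant cochains). -/
def H3Zero {p : ℕ} [Fact p.Prime] (S : Finset Nat.Primes) (K : Rep.{0, 0, 0} (ZMod p) GQ) : Prop :=
  ∀ x : Fermat.Agent.S55.H49.HS S K 3, x = 0

variable (p : ℕ) [Fact p.Prime] (S : Finset Nat.Primes)

/-- (CD2) `H³(G_S, K) = 0` for every admissible `K` (true for `p` odd, `p ∈ S`). -/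
def H3VanishingStatement : Prop :=
  ∀ K : Rep.{0, 0, 0} (ZMod p) GQ, IsAdm p S K → H3Zero S K

/-- The coinduced module `Coind_{G_E}^{G_ℚ} 𝔽_p` (functions `f : G_ℚ → 𝔽_p` with
`f (h g) = f g` for `h ∈ G_E`, `G_ℚ` acting by right translation). -/
abbrev coindTriv (E : IntermediateField ℚ (AlgebraicClosure ℚ)) : Rep.{0, 0, 0} (ZMod p) GQ :=
  Rep.coind E.fixingSubgroup.subtype (Rep.trivial (ZMod p) E.fixingSubgroup (ZMod p))

/-- (ARITHMETIC LEAF, C9b (S1d) + Shapiro)  `H³(G_S, Coind_{G_E} 𝔽_p) = 0`
(`= H³(G_S(E), μ_p)`) for every finite extension `E` of `ℚ` unramified outside `S` and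
containing `μ_p`.  TRUE for `p` odd and `p ∈ S` only: the provider proves
`(hp2 : p ≠ 2) (hpS : pPrime p ∈ S) : H3CoindStatement p S`. -/
def H3CoindStatement : Prop :=
  ∀ E : IntermediateField ℚ (AlgebraicClosure ℚ), E.IsUnramifiedOutside S →
    (∀ ζ : AlgebraicClosure ℚ, ζ ^ p = 1 → ζ ∈ E) → H3Zero S (coindTriv p E)

/-- (CD-a) A group acting linearly on a nonzero finite `𝔽_p`-vector space through elements of
`p`-power order has a nonzero fixed vector. -/
def FixedVectorStatement : Prop :=
  ∀ (p : ℕ) [Fact p.Prime] (H : Type) [Group H] (W : Type) [AddCommGroup W] [Module (ZMod p) W]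
    [Finite W] [Nontrivial W] (ρ : Representation (ZMod p) H W),
    (∀ h : H, ∃ j : ℕ, ρ (h ^ p ^ j) = 1) → ∃ w : W, w ≠ 0 ∧ ∀ h : H, ρ h w = w

/-- (CD-b) Coinduction from a subgroup is exact: it sends an (elementwise) short exact sequence
of `H`-representations to a short exact sequence of `G_ℚ`-representations. -/
def CoindExactStatement : Prop :=
  ∀ (H : Subgroup GQ) {A B C : Rep.{0, 0, 0} (ZMod p) H} (f : A ⟶ B) (g : B ⟶ C),
    Function.Injective f.hom → (∀ a, g.hom (f.hom a) = 0) →
    (∀ b, g.hom b = 0 → ∃ a, f.hom a = b) → Function.Surjective g.hom →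
    IsSES p (Rep.coindMap H.subtype f) (Rep.coindMap H.subtype g)

/-- (CD-c) Coinduction preserves admissibility: if `G_L ≤ H` for a level field `L` and `G_L` acts
trivially on the finite-dimensional `H`-representation `N`, then `Coind_H N` is admissible. -/
def CoindAdmStatement : Prop :=
  ∀ (L : IntermediateField ℚ (AlgebraicClosure ℚ)), IsLevelField p S L →
    ∀ (H : Subgroup GQ), L.fixingSubgroup ≤ H →
    ∀ (N : Rep.{0, 0, 0} (ZMod p) H), FiniteDimensional (ZMod p) N →
      (∀ u : H, (u : GQ) ∈ L.fixingSubgroup → ∀ n : N, N.ρ u n = n) →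
      IsAdm p S (Rep.coind H.subtype N)

/-- (CD-d) For a subgroup `H` of finite index prime to `p`, every `G_ℚ`-representation `K` is a
retract of `Coind_H Res_H K`. -/
def CoindRetractStatement : Prop :=
  ∀ (H : Subgroup GQ), H.index ≠ 0 → ¬ p ∣ H.index → ∀ K : Rep.{0, 0, 0} (ZMod p) GQ,
    ∃ (i : K ⟶ Rep.coind H.subtype (Rep.res H.subtype K))
      (r : Rep.coind H.subtype (Rep.res H.subtype K) ⟶ K), i ≫ r = 𝟙 K

/-- (CD-e) The fixed field `E` of a `p`-Sylow subgroup of `Gal(L/ℚ)`, for a level field `L`: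
`E ⊆ L`, `μ_p ⊆ E`, `[E : ℚ]` is finite and prime to `p`, and every element of `G_E` has a
`p`-power power in `G_L`. -/
def SylowFieldStatement : Prop :=
  ∀ L : IntermediateField ℚ (AlgebraicClosure ℚ), IsLevelField p S L →
    ∃ E : IntermediateField ℚ (AlgebraicClosure ℚ), E ≤ L ∧
      (∀ ζ : AlgebraicClosure ℚ, ζ ^ p = 1 → ζ ∈ E) ∧
      E.fixingSubgroup.index ≠ 0 ∧ ¬ p ∣ E.fixingSubgroup.index ∧
      ∀ h ∈ E.fixingSubgroup, ∃ j : ℕ, h ^ p ^ j ∈ L.fixingSubgroup

end Fermat.Agent.S55.H12
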