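/-
S55 / Program C (helper12): the formal top.

* `exists_pairing_of_finrank_eq` : two finite-dimensional spaces of the same dimension carry a
  bilinear form that is nondegenerate on both sides (the frozen conclusion shape).
* `finrank_range_eq_of_adjoint` : the rank lemma.  For `j : A → B`, `j' : A' → B'` and pairings
  `⟨,⟩ : A × B' → k`, `⟨,⟩' : B × A' → k` with `⟨x, j' y⟩ = ⟨j x, y⟩'`, such that `⟨,⟩'` has trivial
  left kernel and `⟨,⟩` has trivial right kernel, `rank j = rank j'`.
* `exists_pairing_of_adjoint` : the combination, for submodules `X = range j`, `Y = range j'`.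
* `s55_of_finrank_eq` : the frozen statement S55 from the finite-dimensionality of the two
  Tate–Shafarevich groups and the equality of their dimensions.
-/
import Fermat.Prelude.Def_GroupCohomology_ContinuousUnramified

set_option autoImplicit false

open Module

noncomputable section

namespace Fermat.Agent.S55.H12

section LinearAlgebra

variable {k : Type*} [Field k]

/-- Two finite-dimensional spaces of the same dimension carry a perfect pairing. -/
theorem exists_pairing_of_finrank_eq {V W : Type*} [AddCommGroup V] [Module k V]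
    [AddCommGroup W] [Module k W] [FiniteDimensional k V] [FiniteDimensional k W]
    (h : finrank k V = finrank k W) :
    ∃ B : V →ₗ[k] W →ₗ[k] k,
      (∀ y, (∀ x, B y x = 0) → y = 0) ∧ (∀ x, (∀ y, B y x = 0) → x = 0) := by
  classical
  let e : V ≃ₗ[k] W := LinearEquiv.ofFinrankEq V W h
  let b := Module.finBasis k W
  refine ⟨b.toDual ∘ₗ e.toLinearMap, ?_, ?_⟩
  · intro y hy
    have h1 : b.toDual (e y) = 0 := LinearMap.ext fun x => hy x
    have h2 : e y ∈ LinearMap.ker b.toDual := h1
    rw [b.toDual_ker, Submodule.mem_bot] at h2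
    exact e.map_eq_zero_iff.mp h2
  · intro x hx
    apply b.ext_elem
    intro i
    have h1 := hx (e.symm (b i))
    simp only [LinearMap.coe_comp, LinearEquiv.coe_coe, Function.comp_apply,
      LinearEquiv.apply_symm_apply] at h1
    rw [Basis.toDual_apply_right] at h1
    simpa using h1

/-- The rank of a bilinear form is the rank of its flip. -/
theorem finrank_range_flip_eq {A A' : Type*} [AddCommGroup A] [Module k A]
    [AddCommGroup A'] [Module k A'] [FiniteDimensional k A'] (β : A →ₗ[k] A' →ₗ[k] k) :
    finrank k (LinearMap.range β.flip) = finrank k (LinearMap.range β) := by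
  have h : β.flip = β.dualMap ∘ₗ Module.Dual.eval k A' := by
    ext y x
    rfl
  rw [h, LinearMap.range_comp_of_range_eq_top _
    (LinearMap.range_eq_top.mpr (Module.bijective_dual_eval k A').2)]
  exact LinearMap.finrank_range_dualMap_eq_finrank_range β

/-- **The rank lemma.** -/
theorem finrank_range_eq_of_adjoint {A B A' B' : Type*} [AddCommGroup A] [Module k A]
    [AddCommGroup B] [Module k B] [AddCommGroup A'] [Module k A'] [AddCommGroup B'] [Module k B']
    [FiniteDimensional k A] [FiniteDimensional k A']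
    (j : A →ₗ[k] B) (j' : A' →ₗ[k] B')
    (P : A →ₗ[k] B' →ₗ[k] k) (P' : B →ₗ[k] A' →ₗ[k] k)
    (hadj : ∀ x y, P x (j' y) = P' (j x) y)
    (hP' : ∀ b, (∀ y, P' b y = 0) → b = 0)
    (hP : ∀ b', (∀ x, P x b' = 0) → b' = 0) :
    finrank k (LinearMap.range j) = finrank k (LinearMap.range j') := by
  -- the form `β x y = P' (j x) y` on `A × A'`
  let β : A →ₗ[k] A' →ₗ[k] k := P' ∘ₗ j
  have hβ : ∀ x y, β x y = P' (j x) y := fun _ _ => rfl
  have hkerβ : LinearMap.ker β = LinearMap.ker j := by
    ext x
    rw [LinearMap.mem_ker, LinearMap.mem_ker]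
    constructor
    · intro hx
      exact hP' (j x) fun y => by rw [← hβ, hx]; rfl
    · intro hx
      ext y
      rw [hβ, hx, map_zero]
  have hkerβf : LinearMap.ker β.flip = LinearMap.ker j' := by
    ext y
    rw [LinearMap.mem_ker, LinearMap.mem_ker]
    constructor
    · intro hy
      refine hP (j' y) fun x => ?_
      rw [hadj, ← hβ]
      have := congrArg (fun f : A →ₗ[k] k => f x) hy
      simpa using this
    · intro hy
      ext x
      rw [LinearMap.flip_apply, hβ, ← hadj, hy, map_zero]
      rfl
  have h1 : finrank k (LinearMap.range j) = finrank k (LinearMap.range β) := by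
    have e1 := LinearMap.finrank_range_add_finrank_ker j
    have e2 := LinearMap.finrank_range_add_finrank_ker β
    rw [hkerβ] at e2
    omega
  have h2 : finrank k (LinearMap.range j') = finrank k (LinearMap.range β.flip) := by
    have e1 := LinearMap.finrank_range_add_finrank_ker j'
    have e2 := LinearMap.finrank_range_add_finrank_ker β.flip
    rw [hkerβf] at e2
    omega
  rw [h1, h2]
  exact (finrank_range_flip_eq β).symm

/-- The combination: two submodules that are the images of adjoint maps (in the sense of the rank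
lemma) carry a bilinear form that is nondegenerate on both sides. -/
theorem exists_pairing_of_adjoint {A B A' B' : Type*} [AddCommGroup A] [Module k A]
    [AddCommGroup B] [Module k B] [AddCommGroup A'] [Module k A'] [AddCommGroup B'] [Module k B']
    [FiniteDimensional k A] [FiniteDimensional k A']
    (j : A →ₗ[k] B) (j' : A' →ₗ[k] B')
    (P : A →ₗ[k] B' →ₗ[k] k) (P' : B →ₗ[k] A' →ₗ[k] k)
    (hadj : ∀ x y, P x (j' y) = P' (j x) y)
    (hP' : ∀ b, (∀ y, P' b y = 0) → b = 0)
    (hP : ∀ b', (∀ x, P x b' = 0) → b' = 0)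
    (X : Submodule k B') (Y : Submodule k B) (hX : X = LinearMap.range j')
    (hY : Y = LinearMap.range j) :
    ∃ Bil : X →ₗ[k] Y →ₗ[k] k,
      (∀ y, (∀ x, Bil y x = 0) → y = 0) ∧ (∀ x, (∀ y, Bil y x = 0) → x = 0) := by
  subst hX hY
  exact exists_pairing_of_finrank_eq (finrank_range_eq_of_adjoint j j' P P' hadj hP' hP).symm

end LinearAlgebra

section S55

open CategoryTheory groupCohomology ExtCitation

/-- **The frozen statement S55 from the equality of dimensions.** -/
theorem s55_of_finrank_eq {p : ℕ} [Fact p.Prime] (S : Finset Nat.Primes)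
    (M : Rep (ZMod p) (AlgebraicClosure ℚ ≃ₐ[ℚ] AlgebraicClosure ℚ))
    (h1 : FiniteDimensional (ZMod p) (sha₁ S (M.dualTwist (cycloChar p))))
    (h2 : FiniteDimensional (ZMod p) (sha₂ S M))
    (h : finrank (ZMod p) (sha₁ S (M.dualTwist (cycloChar p))) = finrank (ZMod p) (sha₂ S M)) :
    ∃ B : sha₁ S (M.dualTwist (cycloChar p)) →ₗ[ZMod p] sha₂ S M →ₗ[ZMod p] ZMod p,
      (∀ y, (∀ x, B y x = 0) → y = 0) ∧ (∀ x, (∀ y, B y x = 0) → x = 0) :=
  exists_pairing_of_finrank_eq h

/-- **The frozen statement S55 from the `H_c`-formalism**: if `sha₁ S M'` is the image of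
`j' : A' → H¹_S(M')` and `sha₂ S M` is the image of `j : A → H²_S(M)` for finite-dimensional `A`,
`A'` (the compactly supported groups `H²_c(M)`, `H¹_c(M')`) and adjoint pairings
`P : A × H¹_S(M') → 𝔽_p`, `P' : H²_S(M) × A' → 𝔽_p` with trivial right kernel resp. trivial left
kernel, the frozen conclusion holds. -/
theorem s55_of_adjoint {p : ℕ} [Fact p.Prime] (S : Finset Nat.Primes)
    (M : Rep (ZMod p) (AlgebraicClosure ℚ ≃ₐ[ℚ] AlgebraicClosure ℚ))
    {A A' : Type*} [AddCommGroup A] [Module (ZMod p) A] [AddCommGroup A'] [Module (ZMod p) A']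
    [FiniteDimensional (ZMod p) A] [FiniteDimensional (ZMod p) A']
    (j : A →ₗ[ZMod p] continuousH2S S M)
    (j' : A' →ₗ[ZMod p] continuousH1S S (M.dualTwist (cycloChar p)))
    (P : A →ₗ[ZMod p] continuousH1S S (M.dualTwist (cycloChar p)) →ₗ[ZMod p] ZMod p)
    (P' : continuousH2S S M →ₗ[ZMod p] A' →ₗ[ZMod p] ZMod p)
    (hadj : ∀ x y, P x (j' y) = P' (j x) y)
    (hP' : ∀ b, (∀ y, P' b y = 0) → b = 0)
    (hP : ∀ b', (∀ x, P x b' = 0) → b' = 0)
    (hsha1 : sha₁ S (M.dualTwist (cycloChar p)) =
      (LinearMap.range j').map (continuousH1S S (M.dualTwist (cycloChar p))).subtype)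
    (hsha2 : sha₂ S M = LinearMap.range j) :
    ∃ B : sha₁ S (M.dualTwist (cycloChar p)) →ₗ[ZMod p] sha₂ S M →ₗ[ZMod p] ZMod p,
      (∀ y, (∀ x, B y x = 0) → y = 0) ∧ (∀ x, (∀ y, B y x = 0) → x = 0) := by
  have hrank := finrank_range_eq_of_adjoint j j' P P' hadj hP' hP
  have e1 : LinearMap.range j' ≃ₗ[ZMod p]
      (LinearMap.range j').map (continuousH1S S (M.dualTwist (cycloChar p))).subtype :=
    Submodule.equivMapOfInjective _ (Submodule.injective_subtype _) _
  have hfd1 : FiniteDimensional (ZMod p) (sha₁ S (M.dualTwist (cycloChar p))) := by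
    rw [hsha1]
    exact Module.Finite.equiv e1
  have hfd2 : FiniteDimensional (ZMod p) (sha₂ S M) := by
    rw [hsha2]
    infer_instance
  refine s55_of_finrank_eq S M hfd1 hfd2 ?_
  rw [hsha1, hsha2, hrank]
  exact e1.symm.finrank_eq

end S55

end Fermat.Agent.S55.H12
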