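/-
S55 / Program C, package C10 (helper12), Route R: the dévissage steps `RPackage.StepEpi` and
`RPackage.StepMono` of `H70.ChainR` from

* `LevelFieldStatement p S`   (helper43: `H43.levelFieldStatement`);
* `DualAdmStatement p S`      (helper87: `H87.dualAdm`);
* `RFunctor pkg`              : functoriality of `H²(G_S, -)` and `H¹_c(G_S, -)` in the coefficient
                                module and naturality of the pairing;
* `RFunctor.Hc1Inj`  (LE1)    : `H¹_c` preserves injections into admissible modules;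
* `RFunctor.Hc1Exact` (LE2)   : `H¹_c` is exact in the middle on short exact sequences with
                                admissible middle term;
* `RFunctor.H2Surj`  (CD)     : `H²(G_S, -)` preserves surjections of admissible modules
                                (`cd_p G_S ≤ 2`).
-/
import Fermat.Agent.S55.H12.Resolution
import Fermat.Agent.S55.H70.ChainR

set_option autoImplicit false

open CategoryTheory Module groupCohomology ExtCitation

noncomputable section

namespace Fermat.Agent.S55.H12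

open Fermat.Agent.S55.H70

variable {p : ℕ} [Fact p.Prime] {S : Finset Nat.Primes}

/-- Functoriality of `H²(G_S, -)` (the Prelude's `continuousH2S S`) and of `H¹_c(G_S, -)` in the
coefficient module, and naturality of the pairing of an `RPackage`. -/
structure RFunctor (pkg : RPackage p S) where
  H2map : ∀ {X Y : Rep.{0, 0, 0} (ZMod p) GQ}, (X ⟶ Y) →
    (continuousH2S S X →ₗ[ZMod p] continuousH2S S Y)
  Hc1map : ∀ {X Y : Rep.{0, 0, 0} (ZMod p) GQ}, (X ⟶ Y) → (pkg.Hc1 X →ₗ[ZMod p] pkg.Hc1 Y)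
  H2map_id : ∀ X : Rep.{0, 0, 0} (ZMod p) GQ, H2map (𝟙 X) = LinearMap.id
  H2map_comp : ∀ {X Y Z : Rep.{0, 0, 0} (ZMod p) GQ} (f : X ⟶ Y) (g : Y ⟶ Z),
    H2map (f ≫ g) = H2map g ∘ₗ H2map f
  H2map_add : ∀ {X Y : Rep.{0, 0, 0} (ZMod p) GQ} (f g : X ⟶ Y),
    H2map (f + g) = H2map f + H2map g
  Hc1map_id : ∀ X : Rep.{0, 0, 0} (ZMod p) GQ, Hc1map (𝟙 X) = LinearMap.id
  Hc1map_comp : ∀ {X Y Z : Rep.{0, 0, 0} (ZMod p) GQ} (f : X ⟶ Y) (g : Y ⟶ Z),
    Hc1map (f ≫ g) = Hc1map g ∘ₗ Hc1map f
  Hc1map_add : ∀ {X Y : Rep.{0, 0, 0} (ZMod p) GQ} (f g : X ⟶ Y),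
    Hc1map (f + g) = Hc1map f + Hc1map g
  pair_natural : ∀ {X Y : Rep.{0, 0, 0} (ZMod p) GQ} (f : X ⟶ Y) (x : continuousH2S S X)
    (y : pkg.Hc1 (D p Y)),
    pkg.pairing Y (H2map f x) y = pkg.pairing X x (Hc1map (dualHom p f) y)

namespace RFunctor

variable {pkg : RPackage p S} (fn : RFunctor pkg)

/-- (LE1) `H¹_c` preserves injections into admissible modules. -/
def Hc1Inj : Prop :=
  ∀ {X Y : Rep.{0, 0, 0} (ZMod p) GQ} (f : X ⟶ Y), IsAdm p S Y → Function.Injective f.hom →
    Function.Injective (fn.Hc1map f)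

/-- (LE2) `H¹_c` is exact in the middle on short exact sequences with admissible middle term. -/
def Hc1Exact : Prop :=
  ∀ {A B C : Rep.{0, 0, 0} (ZMod p) GQ} (ι : A ⟶ B) (π : B ⟶ C), IsSES p ι π → IsAdm p S B →
    ∀ y : pkg.Hc1 B, fn.Hc1map π y = 0 → ∃ x : pkg.Hc1 A, fn.Hc1map ι x = y

/-- (CD) `H²(G_S, -)` preserves surjections of admissible modules. -/
def H2Surj : Prop :=
  ∀ {F M : Rep.{0, 0, 0} (ZMod p) GQ} (π : F ⟶ M), IsAdm p S F → Function.Surjective π.hom →
    Function.Surjective (fn.H2map π)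

theorem H2map_zero {X Y : Rep.{0, 0, 0} (ZMod p) GQ} : fn.H2map (0 : X ⟶ Y) = 0 := by
  have h := fn.H2map_add (0 : X ⟶ Y) 0
  rw [add_zero] at h
  exact left_eq_add.mp h

theorem Hc1map_zero {X Y : Rep.{0, 0, 0} (ZMod p) GQ} : fn.Hc1map (0 : X ⟶ Y) = 0 := by
  have h := fn.Hc1map_add (0 : X ⟶ Y) 0
  rw [add_zero] at h
  exact left_eq_add.mp h

theorem H2map_sum {X Y : Rep.{0, 0, 0} (ZMod p) GQ} {ι : Type} (s : Finset ι)
    (f : ι → (X ⟶ Y)) : fn.H2map (∑ i ∈ s, f i) = ∑ i ∈ s, fn.H2map (f i) := by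
  classical
  induction s using Finset.induction with
  | empty => simp [H2map_zero]
  | insert a s ha h => rw [Finset.sum_insert ha, Finset.sum_insert ha, fn.H2map_add, h]

theorem Hc1map_sum {X Y : Rep.{0, 0, 0} (ZMod p) GQ} {ι : Type} (s : Finset ι)
    (f : ι → (X ⟶ Y)) : fn.Hc1map (∑ t ∈ s, f t) = ∑ t ∈ s, fn.Hc1map (f t) := by
  classical
  induction s using Finset.induction with
  | empty => simp [Hc1map_zero]
  | insert a s ha h => rw [Finset.sum_insert ha, Finset.sum_insert ha, fn.Hc1map_add, h]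

include fn

/-- Additivity of "`α` surjective" over a finite direct sum. -/
theorem surjective_of_total {ι : Type} [Fintype ι] {F : Rep.{0, 0, 0} (ZMod p) GQ}
    {X : ι → Rep.{0, 0, 0} (ZMod p) GQ} (inc : ∀ s, X s ⟶ F) (prj : ∀ s, F ⟶ X s)
    (htot : ∑ s, prj s ≫ inc s = 𝟙 F) (h : ∀ s, Function.Surjective (pkg.pairing (X s))) :
    Function.Surjective (pkg.pairing F) := by
  refine surjective_of_sum (As := fun s => continuousH2S S (X s))
    (Bs := fun s => pkg.Hc1 (D p (X s))) (fun s => fn.H2map (inc s))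
    (fun s => fn.Hc1map (dualHom p (prj s))) (fun s => fn.Hc1map (dualHom p (inc s)))
    (pkg.pairing F) (fun s => pkg.pairing (X s)) (fun b => ?_)
    (fun s a b => fn.pair_natural (inc s) a b) h
  have e : ∑ s, fn.Hc1map (dualHom p (prj s)) ∘ₗ fn.Hc1map (dualHom p (inc s)) =
      LinearMap.id := by
    simp_rw [← fn.Hc1map_comp, ← dualHom_comp]
    rw [← fn.Hc1map_sum, ← dualHom_sum, htot, dualHom_id, fn.Hc1map_id]
  have := congrArg (fun f : pkg.Hc1 (D p F) →ₗ[ZMod p] pkg.Hc1 (D p F) => f b) e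
  simpa using this

/-- Additivity of "`α` injective" over a finite direct sum. -/
theorem injective_of_total {ι : Type} [Fintype ι] {F : Rep.{0, 0, 0} (ZMod p) GQ}
    {X : ι → Rep.{0, 0, 0} (ZMod p) GQ} (inc : ∀ s, X s ⟶ F) (prj : ∀ s, F ⟶ X s)
    (htot : ∑ s, prj s ≫ inc s = 𝟙 F) (h : ∀ s, Function.Injective (pkg.pairing (X s))) :
    Function.Injective (pkg.pairing F) := by
  refine injective_of_sum (As := fun s => continuousH2S S (X s))
    (Bs := fun s => pkg.Hc1 (D p (X s))) (fun s => fn.H2map (inc s)) (fun s => fn.H2map (prj s))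
    (fun s => fn.Hc1map (dualHom p (prj s)))
    (pkg.pairing F) (fun s => pkg.pairing (X s)) (fun a => ?_)
    (fun s a b => (fn.pair_natural (prj s) a b).symm) h
  have e : ∑ s, fn.H2map (inc s) ∘ₗ fn.H2map (prj s) = LinearMap.id := by
    simp_rw [← fn.H2map_comp]
    rw [← fn.H2map_sum, htot, fn.H2map_id]
  have := congrArg (fun f : continuousH2S S F →ₗ[ZMod p] continuousH2S S F => f a) e
  simpa using this

/-- Surjectivity of `α` passes to quotients (no right exactness needed). -/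
theorem surjective_of_quotient (hDA : DualAdmStatement p S) (h1 : fn.Hc1Inj)
    {F M : Rep.{0, 0, 0} (ZMod p) GQ} (π : F ⟶ M) (hF : IsAdm p S F)
    (hπ : Function.Surjective π.hom) (hs : Function.Surjective (pkg.pairing F)) :
    Function.Surjective (pkg.pairing M) := by
  intro φ
  have hinj : Function.Injective (fn.Hc1map (dualHom p π)) := by
    refine h1 (dualHom p π) (hDA F hF) ?_
    intro a b hab
    apply LinearMap.ext
    intro m
    obtain ⟨x, rfl⟩ := hπ m
    exact congrArg (fun χ : D p F => (χ : Module.Dual (ZMod p) F) x) hab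
  obtain ⟨r, hr⟩ := LinearMap.exists_leftInverse_of_injective (fn.Hc1map (dualHom p π))
    (LinearMap.ker_eq_bot.mpr hinj)
  obtain ⟨x, hx⟩ := hs (φ ∘ₗ r)
  refine ⟨fn.H2map π x, ?_⟩
  ext y
  rw [fn.pair_natural, hx, LinearMap.comp_apply]
  have := congrArg (fun f : pkg.Hc1 (D p M) →ₗ[ZMod p] pkg.Hc1 (D p M) => f y) hr
  simp only [LinearMap.coe_comp, Function.comp_apply, LinearMap.id_coe, id_eq] at this
  rw [this]

/-- Injectivity of `α` along a short exact sequence `0 → K → F → M → 0`. -/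
theorem injective_of_ses (hDA : DualAdmStatement p S) (h2 : fn.Hc1Exact) (hcd : fn.H2Surj)
    {K F M : Rep.{0, 0, 0} (ZMod p) GQ} (ι : K ⟶ F) (π : F ⟶ M) (hses : IsSES p ι π)
    (hF : IsAdm p S F) (hiF : Function.Injective (pkg.pairing F))
    (hsK : Function.Surjective (pkg.pairing K)) : Function.Injective (pkg.pairing M) := by
  rw [injective_iff_map_eq_zero]
  intro x hx
  obtain ⟨xF, rfl⟩ := hcd π hF hses.surj x
  -- `α_F xF` vanishes on the image of `H¹_c(M') → H¹_c(F')`, which is the kernel of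
  -- `H¹_c(F') → H¹_c(K')`
  have hk : ∀ b, fn.Hc1map (dualHom p ι) b = 0 → pkg.pairing F xF b = 0 := by
    intro b hb
    obtain ⟨y, rfl⟩ := h2 (dualHom p π) (dualHom p ι) hses.dual (hDA F hF) b hb
    rw [← fn.pair_natural, hx]
    rfl
  obtain ⟨χ, hχ⟩ := exists_factor_of_ker_le (fn.Hc1map (dualHom p ι)) (pkg.pairing F xF) hk
  obtain ⟨xK, hxK⟩ := hsK χ
  have e : fn.H2map ι xK = xF := by
    apply hiF
    ext b
    rw [fn.pair_natural, hxK, hχ]
  rw [← e, ← LinearMap.comp_apply, ← fn.H2map_comp]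
  have hz : ι ≫ π = 0 := by
    apply Rep.hom_ext
    ext a
    exact hses.zero a
  rw [hz, H2map_zero, LinearMap.zero_apply]

/-- **C10, Route R**: the surjectivity step. -/
theorem stepEpi (hL : LevelFieldStatement p S) (hDA : DualAdmStatement p S) (h1 : fn.Hc1Inj) :
    pkg.StepEpi := by
  intro M hM
  obtain ⟨L, hLf, n, F, inc, prj, π, htot, hF, hπ⟩ := exists_presentation hL M hM
  refine ⟨L, hLf, fun h => ?_⟩
  exact fn.surjective_of_quotient hDA h1 π hF hπ
    (fn.surjective_of_total inc prj htot fun _ => h)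

/-- **C10, Route R**: the injectivity step. -/
theorem stepMono (hL : LevelFieldStatement p S) (hDA : DualAdmStatement p S)
    (h2 : fn.Hc1Exact) (hcd : fn.H2Surj) : pkg.StepMono := by
  intro M hM
  obtain ⟨L, hLf, n, F, inc, prj, π, htot, hF, hπ⟩ := exists_presentation hL M hM
  have hses : IsSES p (kerHom p π) π := isSES_kerHom π hπ
  have hK : IsAdm p S (kerRep p π) := isAdm_of_injective p S (kerHom p π) hses.inj hF
  refine ⟨L, hLf, kerRep p π, hK, fun hi hs => ?_⟩
  exact fn.injective_of_ses hDA h2 hcd (kerHom p π) π hses hF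
    (fn.injective_of_total inc prj htot fun _ => hi) hs

end RFunctor

end Fermat.Agent.S55.H12
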