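/-
S55 / Program C, package C10 (helper12), leaf CD of Route R — ASSEMBLY.

* `h3Zero_of_isSES`, `h3Zero_of_retract`, `h3Zero_of_subsingleton` : formal properties of
  `H³(G_S, -)` (level-`S`-constant cochains);
* `h2SMap_surjective_of_h3Zero` : for a short exact sequence `0 → K → F → M → 0` with `F`
  admissible and `H³(G_S, K) = 0`, the map `H²(G_S, F) → H²(G_S, M)` of the Prelude's
  `continuousH2S` is surjective;
* `h3Vanishing_of_leaves` : `H³(G_S, K) = 0` for all admissible `K`, from the leaves of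
  `H12.CDDefs`;
* `h2SMap_surjective` : (CD) for `H43.H2SMap`.
-/
import Fermat.Agent.S55.H12.CDDefs
import Fermat.Agent.S55.H43.C0Leaves
import Fermat.Agent.S55.H43.H2S
import Fermat.Agent.S55.H99.Bridge2
import Fermat.Agent.S55.H99.LcElt

set_option autoImplicit false

open CategoryTheory Module groupCohomology ExtCitation

noncomputable section

namespace Fermat.Agent.S55.H12

open Fermat.Agent.S55.H70

variable {p : ℕ} [Fact p.Prime] {S : Finset Nat.Primes}

/-! ### Formal properties of `H³` -/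

/-- A quotient of an admissible module is admissible. -/
theorem isAdm_of_surjective {F M : Rep.{0, 0, 0} (ZMod p) GQ} (π : F ⟶ M)
    (hπ : Function.Surjective π.hom) (hF : IsAdm p S F) : IsAdm p S M := by
  obtain ⟨hfd, hsm, hur⟩ := hF
  refine ⟨?_, fun m => ?_, fun q hq A hA g hg => ?_⟩
  · exact Module.Finite.of_surjective π.hom.toLinearMap hπ
  · obtain ⟨x, rfl⟩ := hπ m
    obtain ⟨E, hE, hE'⟩ := hsm x
    refine ⟨E, hE, fun s hs => ?_⟩
    rw [← Rep.hom_comm_apply, hE' s hs]
  · ext m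
    obtain ⟨x, rfl⟩ := hπ m
    rw [← Rep.hom_comm_apply, hur q hq A hA g hg]
    rfl

/-- Admissible modules are smooth for the global level datum. -/
theorem smooth_of_isAdm {X : Rep.{0, 0, 0} (ZMod p) GQ} (hX : IsAdm p S X) :
    (Fermat.Agent.S55.H49.globalDatum S).Smooth X := by
  haveI := hX.1
  exact Fermat.Agent.S55.H43.smoothOfHyp p S X hX.2.1 hX.2.2

/-- The short complex of representations of an elementwise short exact sequence. -/
def sesComplex {K F M : Rep.{0, 0, 0} (ZMod p) GQ} (ι : K ⟶ F) (π : F ⟶ M)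
    (h : IsSES p ι π) : ShortComplex (Rep.{0, 0, 0} (ZMod p) GQ) :=
  ShortComplex.mk ι π (by
    apply Rep.hom_ext
    ext a
    exact h.zero a)

/-- An elementwise short exact sequence with smooth middle term gives a short exact sequence of
complexes of level-constant cochains. -/
theorem lcShortExact_of_isSES {K F M : Rep.{0, 0, 0} (ZMod p) GQ} (ι : K ⟶ F) (π : F ⟶ M)
    (h : IsSES p ι π) (hF : (Fermat.Agent.S55.H49.globalDatum S).Smooth F) :
    ((sesComplex ι π h).map (Fermat.Agent.S55.H49.lcFunctor (ZMod p)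
      (Fermat.Agent.S55.H49.globalDatum S))).ShortExact := by
  refine HomologicalComplex.shortExact_of_degreewise_shortExact _ fun i => ?_
  refine
    { exact := ?_
      mono_f := ?_
      epi_g := ?_ }
  · rw [ShortComplex.moduleCat_exact_iff]
    intro y hy
    exact Fermat.Agent.S55.H49.lcMapCoeff_f_exact _ ι π h.inj h.exact i y hy
  · exact (ModuleCat.mono_iff_injective _).mpr
      (Fermat.Agent.S55.H49.lcMapCoeff_f_injective _ ι h.inj i)
  · exact (ModuleCat.epi_iff_surjective _).mpr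
      (Fermat.Agent.S55.H49.lcMapCoeff_f_surjective _ π h.surj hF i)

/-- `H³` is exact in the middle: if it vanishes on the sub and on the quotient, it vanishes on
the middle term. -/
theorem h3Zero_of_isSES {K F M : Rep.{0, 0, 0} (ZMod p) GQ} (ι : K ⟶ F) (π : F ⟶ M)
    (h : IsSES p ι π) (hF : IsAdm p S F) (hK : H3Zero S K) (hM : H3Zero S M) : H3Zero S F := by
  intro y
  have hX := lcShortExact_of_isSES (S := S) ι π h (smooth_of_isAdm hF)
  obtain ⟨x, rfl⟩ := Fermat.Agent.S55.H99.lc_exact_mid (Fermat.Agent.S55.H49.globalDatum S) hX 3 y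
    (hM _)
  have hx : x = 0 := hK x
  rw [hx]
  exact map_zero _

/-- The map induced on `H³`. -/
def H3map (S : Finset Nat.Primes) {X Y : Rep.{0, 0, 0} (ZMod p) GQ} (f : X ⟶ Y) :
    Fermat.Agent.S55.H49.HS S X 3 →ₗ[ZMod p] Fermat.Agent.S55.H49.HS S Y 3 :=
  (HomologicalComplex.homologyMap
    (Fermat.Agent.S55.H49.lcMapCoeff (Fermat.Agent.S55.H49.globalDatum S) f) 3).hom

theorem H3map_id (X : Rep.{0, 0, 0} (ZMod p) GQ) (x : Fermat.Agent.S55.H49.HS S X 3) :
    H3map S (𝟙 X) x = x := by
  have h : Fermat.Agent.S55.H49.lcMapCoeff (Fermat.Agent.S55.H49.globalDatum S) (𝟙 X) = 𝟙 _ :=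
    (Fermat.Agent.S55.H49.lcFunctor (ZMod p) (Fermat.Agent.S55.H49.globalDatum S)).map_id X
  unfold H3map
  rw [h, HomologicalComplex.homologyMap_id]
  rfl

theorem H3map_comp {X Y Z : Rep.{0, 0, 0} (ZMod p) GQ} (f : X ⟶ Y) (g : Y ⟶ Z)
    (x : Fermat.Agent.S55.H49.HS S X 3) : H3map S (f ≫ g) x = H3map S g (H3map S f x) := by
  have h : Fermat.Agent.S55.H49.lcMapCoeff (Fermat.Agent.S55.H49.globalDatum S) (f ≫ g) =
      Fermat.Agent.S55.H49.lcMapCoeff (Fermat.Agent.S55.H49.globalDatum S) f ≫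
        Fermat.Agent.S55.H49.lcMapCoeff (Fermat.Agent.S55.H49.globalDatum S) g :=
    (Fermat.Agent.S55.H49.lcFunctor (ZMod p) (Fermat.Agent.S55.H49.globalDatum S)).map_comp f g
  unfold H3map
  rw [h, HomologicalComplex.homologyMap_comp]
  rfl

theorem H3map_zero {X Y : Rep.{0, 0, 0} (ZMod p) GQ} (x : Fermat.Agent.S55.H49.HS S X 3) :
    H3map S (0 : X ⟶ Y) x = 0 := by
  have h : Fermat.Agent.S55.H49.lcMapCoeff (Fermat.Agent.S55.H49.globalDatum S) (0 : X ⟶ Y) = 0 :=
    (Fermat.Agent.S55.H49.lcFunctor (ZMod p) (Fermat.Agent.S55.H49.globalDatum S)).map_zero X Y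
  unfold H3map
  rw [h, HomologicalComplex.homologyMap_zero]
  rfl

/-- `H³` of a retract of a module with vanishing `H³` vanishes. -/
theorem h3Zero_of_retract {K T : Rep.{0, 0, 0} (ZMod p) GQ} (i : K ⟶ T) (r : T ⟶ K)
    (h : i ≫ r = 𝟙 K) (hT : H3Zero S T) : H3Zero S K := by
  intro x
  rw [← H3map_id (S := S) K x, ← h, H3map_comp, hT (H3map S i x), map_zero]

/-- `H³` of the zero module vanishes. -/
theorem h3Zero_of_subsingleton (K : Rep.{0, 0, 0} (ZMod p) GQ) [Subsingleton K] :
    H3Zero S K := by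
  intro x
  have h : (𝟙 K : K ⟶ K) = 0 := by
    apply Rep.hom_ext
    ext a
    exact Subsingleton.elim _ _
  rw [← H3map_id (S := S) K x, h, H3map_zero]

/-! ### The chase: `H³(K) = 0` gives surjectivity on the Prelude's `H²` -/

/-- The global degree-2 bridge is compatible with the maps induced by morphisms of
coefficients. -/
theorem bridge_H2SMap {F M : Rep.{0, 0, 0} (ZMod p) GQ} (π : F ⟶ M)
    (eF : continuousH2S S F ≃ₗ[ZMod p] Fermat.Agent.S55.H49.HS S F 2)
    (heF1 : ∀ c : levelCocyclesS₂ S F, ∃ z : Fermat.Agent.S55.H49.cyc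
      (Fermat.Agent.S55.H49.lcComplex (Fermat.Agent.S55.H49.globalDatum S) F) 2,
      ∀ g : Fin 2 → GQ, Fermat.Agent.S55.H49.lcVal z g = c.1 (g 0, g 1))
    (heF2 : ∀ (c : levelCocyclesS₂ S F) (z : Fermat.Agent.S55.H49.cyc
      (Fermat.Agent.S55.H49.lcComplex (Fermat.Agent.S55.H49.globalDatum S) F) 2),
      (∀ g : Fin 2 → GQ, Fermat.Agent.S55.H49.lcVal z g = c.1 (g 0, g 1)) →
        eF (continuousH2Sπ S F c) = (Fermat.Agent.S55.H49.cls
          (Fermat.Agent.S55.H49.lcComplex (Fermat.Agent.S55.H49.globalDatum S) F) 2).hom z)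
    (eM : continuousH2S S M ≃ₗ[ZMod p] Fermat.Agent.S55.H49.HS S M 2)
    (heM2 : ∀ (c : levelCocyclesS₂ S M) (z : Fermat.Agent.S55.H49.cyc
      (Fermat.Agent.S55.H49.lcComplex (Fermat.Agent.S55.H49.globalDatum S) M) 2),
      (∀ g : Fin 2 → GQ, Fermat.Agent.S55.H49.lcVal z g = c.1 (g 0, g 1)) →
        eM (continuousH2Sπ S M c) = (Fermat.Agent.S55.H49.cls
          (Fermat.Agent.S55.H49.lcComplex (Fermat.Agent.S55.H49.globalDatum S) M) 2).hom z)
    (x : continuousH2S S F) :
    eM (Fermat.Agent.S55.H43.H2SMap S π x) =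
      (HomologicalComplex.homologyMap
        (Fermat.Agent.S55.H49.lcMapCoeff (Fermat.Agent.S55.H49.globalDatum S) π) 2).hom (eF x) := by
  obtain ⟨c, rfl⟩ := Submodule.mkQ_surjective _ x
  obtain ⟨z, hz⟩ := heF1 c
  have h1 : eF ((Submodule.mkQ _) c) = (Fermat.Agent.S55.H49.cls _ 2).hom z := heF2 c z hz
  rw [h1, Fermat.Agent.S55.H49.homologyMap_cls]
  have h2 : Fermat.Agent.S55.H43.H2SMap S π ((Submodule.mkQ _) c) =
      continuousH2Sπ S M (Fermat.Agent.S55.H43.cocS₂Map S π c) := rfl
  rw [h2]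
  refine heM2 _ _ fun g => ?_
  show π.hom (Fermat.Agent.S55.H49.lcVal z g) = π.hom (c.1 (g 0, g 1))
  rw [hz]

/-- **The chase.**  For a short exact sequence `0 → K → F → M → 0` with `F` admissible and
`H³(G_S, K) = 0`, the map `H²(G_S, F) → H²(G_S, M)` on the Prelude's `continuousH2S` is
surjective. -/
theorem h2SMap_surjective_of_h3Zero {K F M : Rep.{0, 0, 0} (ZMod p) GQ} (ι : K ⟶ F)
    (π : F ⟶ M) (h : IsSES p ι π) (hF : IsAdm p S F) (hK : H3Zero S K) :
    Function.Surjective (Fermat.Agent.S55.H43.H2SMap S π) := by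
  have hFs := smooth_of_isAdm hF
  have hMs := smooth_of_isAdm (isAdm_of_surjective π h.surj hF)
  obtain ⟨eF, heF1, heF2⟩ := Fermat.Agent.S55.H99.bridgeGlobal2All (ZMod p) S F hFs
  obtain ⟨eM, -, heM2⟩ := Fermat.Agent.S55.H99.bridgeGlobal2All (ZMod p) S M hMs
  have hX := lcShortExact_of_isSES (S := S) ι π h hFs
  intro x
  obtain ⟨y, hy⟩ : ∃ y : Fermat.Agent.S55.H49.HS S F 2,
      (HomologicalComplex.homologyMap (Fermat.Agent.S55.H49.lcMapCoeff
        (Fermat.Agent.S55.H49.globalDatum S) π) 2).hom y = eM x :=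
    Fermat.Agent.S55.H99.lc_exact_right (Fermat.Agent.S55.H49.globalDatum S) hX 2
      (eM x) (hK _)
  refine ⟨eF.symm y, eM.injective ?_⟩
  rw [bridge_H2SMap π eF heF1 heF2 eM heM2, LinearEquiv.apply_symm_apply]
  exact hy

/-! ### Kernels of morphisms of representations of an arbitrary group -/

section Kernel

variable {H : Type} [Group H]

/-- The kernel of a morphism of representations of `H`. -/
def kerRepOf {N N' : Rep.{0, 0, 0} (ZMod p) H} (φ : N ⟶ N') : Rep.{0, 0, 0} (ZMod p) H :=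
  Rep.of (k := ZMod p) (G := H) (X := LinearMap.ker φ.hom.toLinearMap)
    { toFun := fun g => (N.ρ g).restrict (p := LinearMap.ker φ.hom.toLinearMap)
        (q := LinearMap.ker φ.hom.toLinearMap) (fun x hx => by
          rw [LinearMap.mem_ker] at hx ⊢
          have := Rep.hom_comm_apply φ g x
          show φ.hom (N.ρ g x) = 0
          rw [this]
          have hx' : φ.hom x = 0 := hx
          rw [hx', map_zero])
      map_one' := by
        ext x
        simp
      map_mul' := fun g h => by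
        ext x
        simp }

/-- The inclusion of the kernel. -/
def kerHomOf {N N' : Rep.{0, 0, 0} (ZMod p) H} (φ : N ⟶ N') : kerRepOf φ ⟶ N :=
  Rep.ofHom
    { toLinearMap := (LinearMap.ker φ.hom.toLinearMap).subtype
      isIntertwining' := fun g => by
        ext x
        rfl }

theorem kerHomOf_injective {N N' : Rep.{0, 0, 0} (ZMod p) H} (φ : N ⟶ N') :
    Function.Injective (kerHomOf φ).hom := Subtype.val_injective

theorem kerHomOf_zero {N N' : Rep.{0, 0, 0} (ZMod p) H} (φ : N ⟶ N') (x : kerRepOf φ) :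
    φ.hom ((kerHomOf φ).hom x) = 0 := x.2

theorem kerHomOf_exact {N N' : Rep.{0, 0, 0} (ZMod p) H} (φ : N ⟶ N') (y : N)
    (hy : φ.hom y = 0) : ∃ x : kerRepOf φ, (kerHomOf φ).hom x = y := ⟨⟨y, hy⟩, rfl⟩

theorem kerRepOf_ρ_apply {N N' : Rep.{0, 0, 0} (ZMod p) H} (φ : N ⟶ N') (g : H)
    (x : kerRepOf φ) : (kerHomOf φ).hom ((kerRepOf φ).ρ g x) = N.ρ g ((kerHomOf φ).hom x) := rfl

end Kernel

/-! ### A fixed functional -/

/-- A nonzero finite-dimensional representation over `𝔽_p` of a group acting through elements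
of `p`-power order has a surjection onto the trivial representation. -/
theorem exists_surjective_to_trivial (hFV : FixedVectorStatement) {H : Type} [Group H]
    (N : Rep.{0, 0, 0} (ZMod p) H) [FiniteDimensional (ZMod p) N] [Nontrivial N]
    (hN : ∀ h : H, ∃ j : ℕ, N.ρ (h ^ p ^ j) = 1) :
    ∃ φ : N ⟶ Rep.trivial (ZMod p) H (ZMod p), Function.Surjective φ.hom := by
  have hfin : Finite (Module.Dual (ZMod p) N) := Module.finite_of_finite (ZMod p)
  have hnt : Nontrivial (Module.Dual (ZMod p) N) := by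
    apply Module.nontrivial_of_finrank_pos (R := ZMod p)
    rw [Subspace.dual_finrank_eq]
    exact Module.finrank_pos
  obtain ⟨w, hw0, hw⟩ := hFV p H (Module.Dual (ZMod p) N) N.ρ.dual (fun h => by
    obtain ⟨j, hj⟩ := hN h
    refine ⟨j, ?_⟩
    have hinv1 : N.ρ (h ^ p ^ j)⁻¹ = 1 := by
      have h1 : N.ρ (h ^ p ^ j)⁻¹ * N.ρ (h ^ p ^ j) = 1 := by
        rw [← map_mul, inv_mul_cancel, map_one]
      rwa [hj, mul_one] at h1
    rw [Representation.dual_apply, hinv1]
    ext f x
    rfl)
  have hinv : ∀ (h : H) (x : N), w (N.ρ h x) = w x := by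
    intro h x
    have := congrArg (fun f : Module.Dual (ZMod p) N => f x) (hw h⁻¹)
    simp only [Representation.dual_apply, inv_inv] at this
    exact this
  refine ⟨Rep.ofHom
    { toLinearMap := w
      isIntertwining' := fun g => by
        ext x
        exact hinv g x }, ?_⟩
  intro c
  obtain ⟨x, hx⟩ : ∃ x, w x ≠ 0 := by
    by_contra hcon
    exact hw0 (LinearMap.ext fun x => by_contra fun hx => hcon ⟨x, hx⟩)
  refine ⟨(c * (w x)⁻¹) • x, ?_⟩
  show w ((c * (w x)⁻¹) • x) = c
  rw [map_smul, smul_eq_mul, mul_assoc, inv_mul_cancel₀ hx, mul_one]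

/-! ### The induction -/

/-- `H³(G_S, Coind_H N) = 0` for every finite-dimensional `H`-representation `N` on which `G_L`
acts trivially, when `H / G_L` is a `p`-group and `H³(G_S, Coind_H 𝔽_p) = 0`. -/
theorem h3Zero_coind (hFV : FixedVectorStatement) (hEx : CoindExactStatement p)
    (hAdm : CoindAdmStatement p S) (L : IntermediateField ℚ (AlgebraicClosure ℚ))
    (hL : IsLevelField p S L) (H : Subgroup GQ) (hLH : L.fixingSubgroup ≤ H)
    (hpow : ∀ h ∈ H, ∃ j : ℕ, h ^ p ^ j ∈ L.fixingSubgroup)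
    (h0 : H3Zero S (Rep.coind H.subtype (Rep.trivial (ZMod p) H (ZMod p)))) :
    ∀ (d : ℕ) (N : Rep.{0, 0, 0} (ZMod p) H), FiniteDimensional (ZMod p) N →
      Module.finrank (ZMod p) N = d →
      (∀ u : H, (u : GQ) ∈ L.fixingSubgroup → ∀ n : N, N.ρ u n = n) →
      H3Zero S (Rep.coind H.subtype N) := by
  intro d
  induction d with
  | zero =>
    intro N hfd hd _
    have hsub : Subsingleton N := Module.finrank_zero_iff.mp hd
    have : Subsingleton (Rep.coind H.subtype N) := by
      refine ⟨fun a b => Subtype.ext (funext fun g => ?_)⟩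
      exact Subsingleton.elim _ _
    exact h3Zero_of_subsingleton _
  | succ d ih =>
    intro N hfd hd htriv
    have hnt : Nontrivial N := by
      apply Module.nontrivial_of_finrank_pos (R := ZMod p)
      omega
    have hNpow : ∀ h : H, ∃ j : ℕ, N.ρ (h ^ p ^ j) = 1 := by
      intro h
      obtain ⟨j, hj⟩ := hpow h.1 h.2
      refine ⟨j, ?_⟩
      ext n
      exact htriv (h ^ p ^ j) (by simpa using hj) n
    obtain ⟨φ, hφ⟩ := exists_surjective_to_trivial hFV N hNpow
    -- the kernel has dimension `d`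
    have hrank := LinearMap.finrank_range_add_finrank_ker φ.hom.toLinearMap
    have hrange : LinearMap.range φ.hom.toLinearMap = ⊤ := LinearMap.range_eq_top.mpr hφ
    have hker : Module.finrank (ZMod p) (kerRepOf φ) = d := by
      have h1 : Module.finrank (ZMod p) (LinearMap.range φ.hom.toLinearMap) = 1 := by
        rw [hrange, finrank_top]
        exact Module.finrank_self (ZMod p)
      have h2 : Module.finrank (ZMod p) (kerRepOf φ) =
          Module.finrank (ZMod p) (LinearMap.ker φ.hom.toLinearMap) := rfl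
      omega
    have hkfd : FiniteDimensional (ZMod p) (kerRepOf φ) :=
      FiniteDimensional.of_injective (kerHomOf φ).hom.toLinearMap (kerHomOf_injective φ)
    have hktriv : ∀ u : H, (u : GQ) ∈ L.fixingSubgroup → ∀ n : kerRepOf φ,
        (kerRepOf φ).ρ u n = n := by
      intro u hu n
      apply kerHomOf_injective φ
      rw [kerRepOf_ρ_apply, htriv u hu]
    have h1 := ih (kerRepOf φ) hkfd hker hktriv
    have hses := hEx H (kerHomOf φ) φ (kerHomOf_injective φ) (kerHomOf_zero φ)
      (kerHomOf_exact φ) hφ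
    exact h3Zero_of_isSES _ _ hses (hAdm L hL H hLH N hfd htriv) h1 h0

/-- **(CD2)** `H³(G_S, K) = 0` for every admissible `K`, from the leaves. -/
theorem h3Vanishing_of_leaves (hLF : LevelFieldStatement p S) (hSyl : SylowFieldStatement p S)
    (hFV : FixedVectorStatement) (hEx : CoindExactStatement p) (hAdm : CoindAdmStatement p S)
    (hRet : CoindRetractStatement p) (hArith : H3CoindStatement p S) :
    H3VanishingStatement p S := by
  intro K hK
  obtain ⟨L, hL, htriv⟩ := hLF K hK
  obtain ⟨E, hEL, hμ, hidx, hnd, hpow⟩ := hSyl L hL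
  have hLH : L.fixingSubgroup ≤ E.fixingSubgroup := IntermediateField.fixingSubgroup_antitone hEL
  have h0 : H3Zero S (coindTriv p E) := hArith E (hL.1.of_le hEL) hμ
  have hfd : FiniteDimensional (ZMod p) (Rep.res E.fixingSubgroup.subtype K) := hK.1
  have hN := h3Zero_coind hFV hEx hAdm L hL E.fixingSubgroup hLH hpow h0 _
    (Rep.res E.fixingSubgroup.subtype K) hfd rfl (fun u hu n => htriv u hu n)
  obtain ⟨i, r, hir⟩ := hRet E.fixingSubgroup hidx hnd K
  exact h3Zero_of_retract i r hir hN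

/-- **(CD)** for `H43.H2SMap`: `H²(G_S, -)` preserves surjections of admissible modules. -/
theorem h2SMap_surjective (h3 : H3VanishingStatement p S) {F M : Rep.{0, 0, 0} (ZMod p) GQ}
    (π : F ⟶ M) (hF : IsAdm p S F) (hπ : Function.Surjective π.hom) :
    Function.Surjective (Fermat.Agent.S55.H43.H2SMap S π) := by
  have hses : IsSES p (kerHom p π) π := isSES_kerHom π hπ
  exact h2SMap_surjective_of_h3Zero (kerHom p π) π hses hF
    (h3 _ (isAdm_of_injective p S (kerHom p π) hses.inj hF))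

end Fermat.Agent.S55.H12
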