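/-
S55 / Program C, package C10 (helper12), Route R: ASSEMBLY for the concrete package
`H43.rPackage S pairing` (the Prelude's `continuousH2S S` and helper43's `H¹_c = Z1c ⧸ B1c`).

Inputs still open after this file:

* the pairing of package C2 and its naturality FOR MORPHISMS OF ADMISSIBLE MODULES (`hnat`);
* the arithmetic leaf `H3CoindStatement p S` (`H³(G_S, Coind_{G_E} 𝔽_p) = 0`; C9b + Shapiro),
  needed for `StepMono` only.

Results:

* `h3Vanishing hpS hArith : H3VanishingStatement p S`            (all CD leaves plugged in);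
* `h2SMap_surjective_adm hpS hArith`                             (= leaf (CD) for `H43.H2SMap`);
* `rFunctorAdm S pairing hnat : RFunctorAdm (H43.rPackage S pairing)` with (LE1), (LE2), (CD);
* `rPackage_stepEpi hpS pairing hnat : (H43.rPackage S pairing).StepEpi`;
* `rPackage_stepMono hpS pairing hnat hArith : (H43.rPackage S pairing).StepMono`.
-/
import Fermat.Agent.S55.H12.C10RA
import Fermat.Agent.S55.H12.CD
import Fermat.Agent.S55.H17.CDLeaves
import Fermat.Agent.S55.H33.SylowField
import Fermat.Agent.S55.H99.CoindAdm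
import Fermat.Agent.S55.H99.CoindRetract
import Fermat.Agent.S55.H43.RGlue
import Fermat.Agent.S55.H43.LevelField
import Fermat.Agent.S55.H87.DualAdm

set_option autoImplicit false

open CategoryTheory Module groupCohomology ExtCitation

noncomputable section

namespace Fermat.Agent.S55.H12

open Fermat.Agent.S55.H70

variable {p : ℕ} [Fact p.Prime] {S : Finset Nat.Primes}

/-- **(CD2)** `H³(G_S, K) = 0` for every admissible `K`, from the arithmetic leaf alone. -/
theorem h3Vanishing (hpS : pPrime p ∈ S) (hArith : H3CoindStatement p S) :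
    H3VanishingStatement p S :=
  h3Vanishing_of_leaves (Fermat.Agent.S55.H43.levelFieldStatement S hpS)
    (Fermat.Agent.S55.H33.sylowFieldStatement p S) Fermat.Agent.S55.H17.fixedVectorStatement
    (Fermat.Agent.S55.H17.coindExactStatement p) (Fermat.Agent.S55.H99.coindAdm p S)
    (Fermat.Agent.S55.H99.coindRetract p) hArith

/-- **(CD)** `H²(G_S, -)` preserves surjections of admissible modules, from the arithmetic leaf
alone. -/
theorem h2SMap_surjective_adm (hpS : pPrime p ∈ S) (hArith : H3CoindStatement p S)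
    {F M : Rep.{0, 0, 0} (ZMod p) GQ} (π : F ⟶ M) (hF : IsAdm p S F)
    (hπ : Function.Surjective π.hom) :
    Function.Surjective (Fermat.Agent.S55.H43.H2SMap S π) :=
  h2SMap_surjective (h3Vanishing hpS hArith) π hF hπ

variable (S)
variable (pairing : ∀ M : Rep.{0, 0, 0} (ZMod p) GQ,
    continuousH2S S M →ₗ[ZMod p] Fermat.Agent.S55.H43.Hc1 S (D p M) →ₗ[ZMod p] ZMod p)

/-- Functoriality of `H²` and `H¹_c` for the concrete package, from the naturality of the pairing
for morphisms of admissible modules. -/
def rFunctorAdm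
    (hnat : ∀ {X Y : Rep.{0, 0, 0} (ZMod p) GQ} (f : X ⟶ Y), IsAdm p S X → IsAdm p S Y →
      ∀ (x : continuousH2S S X) (y : Fermat.Agent.S55.H43.Hc1 S (D p Y)),
      pairing Y (Fermat.Agent.S55.H43.H2SMap S f x) y =
        pairing X x (Fermat.Agent.S55.H43.Hc1Map S (dualHom p f) y)) :
    RFunctorAdm (Fermat.Agent.S55.H43.rPackage S pairing) where
  H2map f := Fermat.Agent.S55.H43.H2SMap S f
  Hc1map f := Fermat.Agent.S55.H43.Hc1Map S f
  H2map_id X := Fermat.Agent.S55.H43.H2SMap_id S X
  H2map_comp f g := Fermat.Agent.S55.H43.H2SMap_comp S f g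
  H2map_add f g := Fermat.Agent.S55.H43.H2SMap_add S f g
  Hc1map_id X := Fermat.Agent.S55.H43.Hc1Map_id S X
  Hc1map_comp f g := Fermat.Agent.S55.H43.Hc1Map_comp S f g
  Hc1map_add f g := Fermat.Agent.S55.H43.Hc1Map_add S f g
  pair_natural f hX hY x y := hnat f hX hY x y

variable (hnat : ∀ {X Y : Rep.{0, 0, 0} (ZMod p) GQ} (f : X ⟶ Y), IsAdm p S X → IsAdm p S Y →
      ∀ (x : continuousH2S S X) (y : Fermat.Agent.S55.H43.Hc1 S (D p Y)),
      pairing Y (Fermat.Agent.S55.H43.H2SMap S f x) y =
        pairing X x (Fermat.Agent.S55.H43.Hc1Map S (dualHom p f) y))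

/-- **(LE1)** for the concrete package. -/
theorem rFunctorAdm_hc1Inj (hpS : pPrime p ∈ S) : (rFunctorAdm S pairing hnat).Hc1Inj :=
  fun f _ hf => Fermat.Agent.S55.H43.Hc1Map_injective S ⟨pPrime p, hpS⟩ f hf

/-- **(LE2)** for the concrete package. -/
theorem rFunctorAdm_hc1Exact : (rFunctorAdm S pairing hnat).Hc1Exact :=
  fun ι π hses hB y hy => by
    obtain ⟨L, hL, hfix⟩ := Fermat.Agent.S55.H43.exists_level_of_isAdm S hB
    refine Fermat.Agent.S55.H43.Hc1Map_exact S ι π hses.inj hses.exact hses.surj
      (fun m => ⟨L, hL, fun s hs => ?_⟩) y hy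
    rw [hfix s hs]
    rfl

/-- **(CD)** for the concrete package, from the arithmetic leaf. -/
theorem rFunctorAdm_h2Surj (hpS : pPrime p ∈ S) (hArith : H3CoindStatement p S) :
    (rFunctorAdm S pairing hnat).H2Surj :=
  fun π hF hπ => h2SMap_surjective_adm hpS hArith π hF hπ

include hnat in
/-- **C10 (StepEpi)** for the concrete package: only the naturality of the pairing on admissible
modules is assumed. -/
theorem rPackage_stepEpi (hpS : pPrime p ∈ S) :
    (Fermat.Agent.S55.H43.rPackage S pairing).StepEpi :=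
  (rFunctorAdm S pairing hnat).stepEpi (Fermat.Agent.S55.H43.levelFieldStatement S hpS)
    (Fermat.Agent.S55.H87.dualAdm S hpS) (rFunctorAdm_hc1Inj S pairing hnat hpS)

include hnat in
/-- **C10 (StepMono)** for the concrete package: the naturality of the pairing on admissible
modules and the arithmetic leaf `H3CoindStatement p S` are assumed. -/
theorem rPackage_stepMono (hpS : pPrime p ∈ S) (hArith : H3CoindStatement p S) :
    (Fermat.Agent.S55.H43.rPackage S pairing).StepMono :=
  (rFunctorAdm S pairing hnat).stepMono (Fermat.Agent.S55.H43.levelFieldStatement S hpS)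
    (Fermat.Agent.S55.H87.dualAdm S hpS) (rFunctorAdm_hc1Exact S pairing hnat)
    (rFunctorAdm_h2Surj S pairing hnat hpS hArith)

end Fermat.Agent.S55.H12
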