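/-
S55 / Program C, package C10 (helper12), leaf CD: CHANGE OF COEFFICIENT RING in level-constant
cohomology.

The complex of level-constant cochains of a representation only depends on the underlying
additive group with its group action, not on the base ring: an additive equivariant bijection
`e : M ≃+ M'` between a `k`-representation `M` and a `k'`-representation `M'` of the same group
transports the vanishing of `Hlc D M (n+1)` to `Hlc D M' (n+1)`
(`hlc_eq_zero_of_addEquiv`).  Used with `k = ℤ`, `M = μ_p` and `k' = 𝔽_p`, `M' = 𝔽_p` over a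
field containing `μ_p`.
-/
import Fermat.Agent.S55.H49.ConeApi
import Fermat.Agent.S55.H99.Bridge2

set_option autoImplicit false

open CategoryTheory groupCohomology

noncomputable section

namespace Fermat.Agent.S55.H12

open Fermat.Agent.S55.H49

section Generic

variable {k k' : Type} [CommRing k] [CommRing k'] {G : Type} [Group G]

/-- An additive map commutes with the signs `(-1)^a` of two base rings. -/
theorem map_neg_one_pow_smul {M M' : Type} [AddCommGroup M] [Module k M] [AddCommGroup M']
    [Module k' M'] (e : M →+ M') (a : ℕ) (m : M) :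
    e ((-1 : k) ^ a • m) = (-1 : k') ^ a • e m := by
  induction a generalizing m with
  | zero => simp
  | succ a ih =>
    rw [pow_succ, pow_succ, mul_smul, mul_smul, ih, neg_smul, one_smul, neg_smul, one_smul,
      map_neg]

/-- The inhomogeneous differential commutes with additive equivariant maps of the coefficients
(over possibly different base rings). -/
theorem d_comp_addMonoidHom (M : Rep.{0} k G) (M' : Rep.{0} k' G) (e : M →+ M')
    (he : ∀ g m, e (M.ρ g m) = M'.ρ g (e m)) (n : ℕ) (f : (Fin n → G) → M) :
    (inhomogeneousCochains.d M' n).hom (fun g => e (f g)) =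
      fun g => e ((inhomogeneousCochains.d M n).hom f g) := by
  funext g
  rw [inhomogeneousCochains.d_hom_apply, inhomogeneousCochains.d_hom_apply, map_add, map_sum, he]
  congr 1
  refine Finset.sum_congr rfl fun j _ => ?_
  exact (map_neg_one_pow_smul e _ _).symm

/-- Level-constancy is preserved by additive equivariant maps of the coefficients. -/
theorem isLC_comp_addMonoidHom (D : LevelDatum G) (M : Rep.{0} k G) (M' : Rep.{0} k' G)
    (e : M →+ M') (he : ∀ g m, e (M.ρ g m) = M'.ρ g (e m)) {n : ℕ} {f : (Fin n → G) → M}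
    (hf : IsLC D M f) : IsLC D M' (fun g => e (f g)) := by
  obtain ⟨F, hF, hN, h1, h2⟩ := hf
  refine ⟨F, hF, hN, fun g s hs => ?_, fun g s hs => ?_⟩
  · show e (f (g * s)) = e (f g)
    rw [h1 g s hs]
  · show M'.ρ s (e (f g)) = e (f g)
    rw [← he, h2 g s hs]

/-- **Change of coefficient ring**: an additive equivariant bijection `M ≃+ M'` transports the
vanishing of level-constant cohomology in positive degree. -/
theorem hlc_eq_zero_of_addEquiv (D : LevelDatum G) (M : Rep.{0} k G) (M' : Rep.{0} k' G)
    (e : M ≃+ M') (he : ∀ g m, e (M.ρ g m) = M'.ρ g (e m)) (n : ℕ)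
    (h : ∀ x : Hlc D M (n + 1), x = 0) : ∀ x : Hlc D M' (n + 1), x = 0 := by
  intro x
  obtain ⟨z, rfl⟩ := cls_surjective (lcComplex D M') (n + 1) x
  have he' : ∀ g m', e.symm (M'.ρ g m') = M.ρ g (e.symm m') := by
    intro g m'
    apply e.injective
    rw [he, e.apply_symm_apply, e.apply_symm_apply]
  -- the cocycle `e⁻¹ ∘ z` with values in `M`
  let w : (lcComplex D M).X (n + 1) :=
    (⟨fun g => e.symm (lcVal z g),
      isLC_comp_addMonoidHom D M' M e.symm.toAddMonoidHom he' z.1.2⟩ : lcCochains D M (n + 1))
  have hw : lcValC w = fun g => e.symm (lcVal z g) := rfl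
  have hz : (inhomogeneousCochains.d M' (n + 1)).hom (lcVal z) = 0 := by
    have h1 := Fermat.Agent.S55.H99.lcValC_d D M' (n + 1) z.1
    rw [mem_cyc.mp z.2] at h1
    exact h1.symm
  have key1 : (inhomogeneousCochains.d M (n + 1)).hom (fun g => e.symm (lcVal z g)) =
      fun g => e.symm ((inhomogeneousCochains.d M' (n + 1)).hom (lcVal z) g) :=
    d_comp_addMonoidHom M' M e.symm.toAddMonoidHom he' (n + 1) (lcVal z)
  have hwc : w ∈ cyc (lcComplex D M) (n + 1) := by
    rw [mem_cyc]
    apply lcValC_injective
    rw [Fermat.Agent.S55.H99.lcValC_d, hw, key1, hz]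
    funext g
    exact map_zero e.symm
  have h0 := h ((cls (lcComplex D M) (n + 1)).hom ⟨w, hwc⟩)
  obtain ⟨y, hy⟩ := (cls_eq_zero_iff (lcComplex D M) n ⟨w, hwc⟩).mp h0
  let y' : (lcComplex D M').X n :=
    (⟨fun g => e (lcValC y g),
      isLC_comp_addMonoidHom D M M' e.toAddMonoidHom he
        (show lcCochains D M n from y).2⟩ : lcCochains D M' n)
  have hy' : lcValC y' = fun g => e (lcValC y g) := rfl
  have key2 : (inhomogeneousCochains.d M' n).hom (fun g => e (lcValC y g)) =
      fun g => e ((inhomogeneousCochains.d M n).hom (lcValC y) g) :=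
    d_comp_addMonoidHom M M' e.toAddMonoidHom he n (lcValC y)
  refine (cls_eq_zero_iff (lcComplex D M') n z).mpr ⟨y', ?_⟩
  apply lcValC_injective
  rw [Fermat.Agent.S55.H99.lcValC_d, hy', key2, ← Fermat.Agent.S55.H99.lcValC_d, hy]
  funext g
  show e (e.symm (lcVal z g)) = lcVal z g
  exact e.apply_symm_apply _

end Generic

end Fermat.Agent.S55.H12
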