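/-
S55 / Program C, package C10 (helper12), leaf CD: REDUCTION OF THE ARITHMETIC LEAF
`H3CoindStatement p S` to

* `K1Statement p S`      : (K1) of package C9b, `H³_lc(G_S(E), μ_p) = 0` for finite `E ⊆ ℚ_S`
                           containing `μ_p` (`ℤ`-coefficients, helper42's `fieldDatum`, `Mux`);
* `H99.ShInjStatement 3` : injectivity of the Shapiro map in degree 3 (helper99 / helper49).

The bridge is the change of coefficient ring of `H12/CoeffChange.lean`: over a field `E ∋ μ_p`,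
`μ_p ≅ 𝔽_p` as `G_E`-modules, and level-constant cohomology does not see the base ring.

Main results:

* `hlc_fp_eq_zero_of_k1`   : `H³_lc(G_S(E), 𝔽_p) = 0` from (K1);
* `h3Coind_of_k1`          : `ShInjStatement 3 → K1Statement p S → H3CoindStatement p S`;
* `h2Surj_of_k1`           : leaf (CD) of Route R from (K1) and (SH-inj 3).
-/
import Fermat.Agent.S55.H12.CoeffChange
import Fermat.Agent.S55.H12.C10Final
import Fermat.Agent.S55.H42.GSDefs
import Fermat.Agent.S55.H99.ShapiroDefs
import Fermat.Agent.S55.H49.ShapiroDefs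

set_option autoImplicit false

open CategoryTheory groupCohomology ExtCitation

noncomputable section

namespace Fermat.Agent.S55.H12

open Fermat.Agent.S55.H49 Fermat.Agent.S55.H42

/-- `μ_p(ℚ̄)` has `p` elements. -/
theorem natCard_mux (p : ℕ) [Fact p.Prime] : Nat.card (Mux p) = p := by
  have : NeZero p := ⟨(Fact.out : p.Prime).ne_zero⟩
  have h := HasEnoughRootsOfUnity.natCard_rootsOfUnity (AlgebraicClosure ℚ) p
  refine (Nat.card_congr
    { toFun := fun x => ⟨unitsRep.val x, (mem_rootsOfUnity p _).mpr (unitsRep.val_mem x)⟩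
      invFun := fun u => unitsRep.mk u.1 ((mem_rootsOfUnity p _).mp u.2)
      left_inv := fun x => rfl
      right_inv := fun u => rfl }).trans h

/-- `μ_p(ℚ̄) ≅ ℤ/p` as additive groups. -/
theorem exists_addEquiv_mux (p : ℕ) [Fact p.Prime] : Nonempty (Mux p ≃+ ZMod p) := by
  have hc : IsAddCyclic (Mux p) := isAddCyclic_of_prime_card (natCard_mux p)
  exact ⟨((ZMod.ringEquivCongr (natCard_mux p).symm).toAddEquiv.trans
    (zmodAddCyclicAddEquiv hc)).symm⟩

/-- The absolute Galois group of a field containing `μ_p` acts trivially on `μ_p`. -/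
theorem resF_mux_trivial (p : ℕ) (E : IntermediateField ℚ (AlgebraicClosure ℚ))
    (hμ : ∀ ζ : AlgebraicClosure ℚ, ζ ^ p = 1 → ζ ∈ E) (g : ↥E.fixingSubgroup)
    (x : resF E (Mux p)) : (resF E (Mux p)).ρ g x = x := by
  let x' : Mux p := x
  have hx : ((unitsRep.val x' : (AlgebraicClosure ℚ)ˣ) : AlgebraicClosure ℚ) ∈ E := by
    apply hμ
    have h1 : unitsRep.val x' ^ p = 1 := unitsRep.val_mem x'
    rw [← Units.val_pow_eq_pow_val, h1, Units.val_one]
  have key : (Mux p).ρ (g : AlgebraicClosure ℚ ≃ₐ[ℚ] AlgebraicClosure ℚ) x' = x' := by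
    apply unitsRep.val_injective
    rw [unitsRep.val_ρ]
    apply Units.ext
    rw [coe_smul_units]
    exact (IntermediateField.mem_fixingSubgroup_iff E _).mp g.2 _ hx
  exact key

variable (p : ℕ) [Fact p.Prime] (S : Finset Nat.Primes)

/-- **(K1)** of package C9b, in the form consumed by (CD): `H³_lc(G_S(E), μ_p) = 0` for every
finite extension `E` of `ℚ` unramified outside `S` and containing `μ_p`
(true for `p` odd, `p ∈ S`). -/
def K1Statement : Prop :=
  ∀ E : IntermediateField ℚ (AlgebraicClosure ℚ), E.IsUnramifiedOutside S →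
    (∀ ζ : AlgebraicClosure ℚ, ζ ^ p = 1 → ζ ∈ E) →
    ∀ x : Hlc (fieldDatum S E) (resF E (Mux p)) 3, x = 0

variable {p S}

/-- `H³_lc(G_S(E), 𝔽_p) = 0` from (K1): for every `𝔽_p`-representation of `G_E` with trivial
action and underlying group `ℤ/p`. -/
theorem hlc_fp_eq_zero_of_k1 (hk1 : K1Statement p S)
    (E : IntermediateField ℚ (AlgebraicClosure ℚ)) (hE : E.IsUnramifiedOutside S)
    (hμ : ∀ ζ : AlgebraicClosure ℚ, ζ ^ p = 1 → ζ ∈ E)
    (M' : Rep.{0} (ZMod p) ↥E.fixingSubgroup) (e' : M' ≃+ ZMod p)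
    (htriv : ∀ (g : ↥E.fixingSubgroup) (m : M'), M'.ρ g m = m) :
    ∀ x : Hlc (fieldDatum S E) M' 3, x = 0 := by
  obtain ⟨e0⟩ := exists_addEquiv_mux p
  let e : resF E (Mux p) ≃+ M' := (show resF E (Mux p) ≃+ ZMod p from e0).trans e'.symm
  refine hlc_eq_zero_of_addEquiv (fieldDatum S E) (resF E (Mux p)) M' e (fun g m => ?_) 2
    (hk1 E hE hμ)
  rw [resF_mux_trivial p E hμ g m, htriv]

/-- `G_E` contains a normal level subgroup of the global datum, for `E` unramified outside
`S`. -/
theorem containsLevel_fixingSubgroup (E : IntermediateField ℚ (AlgebraicClosure ℚ))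
    (hE : E.IsUnramifiedOutside S) :
    Fermat.Agent.S55.H99.ContainsLevel (globalDatum S) E.fixingSubgroup := by
  obtain ⟨N, h1, h2, h3, -⟩ := Fermat.Agent.S55.H43.exists_normal_level (S := S) hE
  exact ⟨N, h1, h3, fun s hs => IntermediateField.fixingSubgroup_antitone h2 hs⟩

/-- `fieldDatum S E` is the restriction of the global datum to `G_E`. -/
theorem isRestrict_fieldDatum (E : IntermediateField ℚ (AlgebraicClosure ℚ)) :
    Fermat.Agent.S55.H99.IsRestrict (globalDatum S) E.fixingSubgroup (fieldDatum S E) :=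
  ⟨fun _ => rfl, fun _ => Iff.rfl⟩

/-- **The arithmetic leaf of (CD)** from (K1) of C9b and Shapiro injectivity in degree 3. -/
theorem h3Coind_of_k1 (hsh : Fermat.Agent.S55.H99.ShInjStatement 3) (hk1 : K1Statement p S) :
    H3CoindStatement p S := by
  intro E hE hμ x
  have hinj := hsh (AlgebraicClosure ℚ ≃ₐ[ℚ] AlgebraicClosure ℚ) (ZMod p) (globalDatum S)
    E.fixingSubgroup (fieldDatum S E) (isRestrict_fieldDatum E)
    (containsLevel_fixingSubgroup E hE) (Rep.trivial (ZMod p) ↥E.fixingSubgroup (ZMod p))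
  apply hinj
  rw [map_zero]
  exact hlc_fp_eq_zero_of_k1 hk1 E hE hμ _ (AddEquiv.refl _) (fun _ _ => rfl) _

/-- The same from helper49's form `H49.ShInjStatement 3` of Shapiro injectivity
(`(globalDatum S).restrict G_E = fieldDatum S E` and `Res (trivial) = trivial` hold by `rfl`). -/
theorem h3Coind_of_k1' (hsh : Fermat.Agent.S55.H49.ShInjStatement 3) (hk1 : K1Statement p S) :
    H3CoindStatement p S := by
  intro E hE hμ x
  obtain ⟨N, h1, h2, h3, -⟩ := Fermat.Agent.S55.H43.exists_normal_level (S := S) hE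
  have hinj := hsh (ZMod p) (AlgebraicClosure ℚ ≃ₐ[ℚ] AlgebraicClosure ℚ) (globalDatum S)
    E.fixingSubgroup (Rep.trivial (ZMod p) (AlgebraicClosure ℚ ≃ₐ[ℚ] AlgebraicClosure ℚ) (ZMod p))
    ⟨N, h1, h3, fun s hs => IntermediateField.fixingSubgroup_antitone h2 hs⟩
  have hz := hlc_fp_eq_zero_of_k1 hk1 E hE hμ
    (Rep.res E.fixingSubgroup.subtype
      (Rep.trivial (ZMod p) (AlgebraicClosure ℚ ≃ₐ[ℚ] AlgebraicClosure ℚ) (ZMod p)))
    (AddEquiv.refl _) (fun _ _ => rfl)
  exact hinj ((hz _).trans (hz _).symm)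

/-- **(CD2)** `H³(G_S, K) = 0` for all admissible `K`, from (K1) and (SH-inj 3). -/
theorem h3Vanishing_of_k1 (hpS : pPrime p ∈ S) (hsh : Fermat.Agent.S55.H99.ShInjStatement 3)
    (hk1 : K1Statement p S) : H3VanishingStatement p S :=
  h3Vanishing hpS (h3Coind_of_k1 hsh hk1)

/-- **(CD)** `H²(G_S, -)` preserves surjections of admissible modules, from (K1) and
(SH-inj 3). -/
theorem h2Surj_of_k1 (hpS : pPrime p ∈ S) (hsh : Fermat.Agent.S55.H99.ShInjStatement 3)
    (hk1 : K1Statement p S) {F M : Rep.{0, 0, 0} (ZMod p) Fermat.Agent.S55.H70.GQ} (π : F ⟶ M)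
    (hF : Fermat.Agent.S55.H70.IsAdm p S F) (hπ : Function.Surjective π.hom) :
    Function.Surjective (Fermat.Agent.S55.H43.H2SMap S π) :=
  h2SMap_surjective_adm hpS (h3Coind_of_k1 hsh hk1) π hF hπ

end Fermat.Agent.S55.H12
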