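/-
S55 / Program C, package C10 (helper12), D3 form: the dévissage step `PTPackage.Step` of
`H70.Chain` from

* `LevelFieldStatement`  : every admissible module is trivial on `G_L` for some level field `L`;
* `PTFunctor pkg`        : functoriality of `H`, `Hc` in the coefficients (C0) and naturality of
                           the pairing (C2);
* `PTFunctor.Ladder`     : for a short exact sequence `0 → K → F → M → 0` of admissible modules,
                           connecting maps `δc : Hⁱ_c(M) → Hⁱ⁺¹_c(K)`, `δ : Hʲ(K') → Hʲ⁺¹(M')`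
                           (`i + j = 2`) with the two exactness statements, the zero composite and
                           the compatibility of the pairing with them, up to a scalar (C0 + C2).

(Route R, `H70.ChainR`, is served by `H12.C10R`.)
-/
import Fermat.Agent.S55.H12.Resolution

set_option autoImplicit false

open CategoryTheory Module groupCohomology ExtCitation

noncomputable section

namespace Fermat.Agent.S55.H12

open Fermat.Agent.S55.H70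

variable {p : ℕ} [Fact p.Prime] {S : Finset Nat.Primes}

/-- (C0 + C2) Functoriality of `H` and `Hc` in the coefficient module and naturality of the
pairing. -/
structure PTFunctor (pkg : PTPackage p S) where
  Hmap : ∀ (j : ℕ) {X Y : Rep.{0, 0, 0} (ZMod p) GQ}, (X ⟶ Y) → (pkg.H j X →ₗ[ZMod p] pkg.H j Y)
  Hcmap : ∀ (i : ℕ) {X Y : Rep.{0, 0, 0} (ZMod p) GQ}, (X ⟶ Y) →
    (pkg.Hc i X →ₗ[ZMod p] pkg.Hc i Y)
  Hmap_id : ∀ (j : ℕ) (X : Rep.{0, 0, 0} (ZMod p) GQ), Hmap j (𝟙 X) = LinearMap.id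
  Hmap_comp : ∀ (j : ℕ) {X Y Z : Rep.{0, 0, 0} (ZMod p) GQ} (f : X ⟶ Y) (g : Y ⟶ Z),
    Hmap j (f ≫ g) = Hmap j g ∘ₗ Hmap j f
  Hmap_add : ∀ (j : ℕ) {X Y : Rep.{0, 0, 0} (ZMod p) GQ} (f g : X ⟶ Y),
    Hmap j (f + g) = Hmap j f + Hmap j g
  Hcmap_id : ∀ (i : ℕ) (X : Rep.{0, 0, 0} (ZMod p) GQ), Hcmap i (𝟙 X) = LinearMap.id
  Hcmap_comp : ∀ (i : ℕ) {X Y Z : Rep.{0, 0, 0} (ZMod p) GQ} (f : X ⟶ Y) (g : Y ⟶ Z),
    Hcmap i (f ≫ g) = Hcmap i g ∘ₗ Hcmap i f
  Hcmap_add : ∀ (i : ℕ) {X Y : Rep.{0, 0, 0} (ZMod p) GQ} (f g : X ⟶ Y),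
    Hcmap i (f + g) = Hcmap i f + Hcmap i g
  pair_natural : ∀ (i j : ℕ) {X Y : Rep.{0, 0, 0} (ZMod p) GQ} (f : X ⟶ Y) (x : pkg.Hc i X)
    (y : pkg.H j (D p Y)),
    pkg.pair i j Y (Hcmap i f x) y = pkg.pair i j X x (Hmap j (dualHom p f) y)

/-- (C0 + C2) **The ladder**: for a short exact sequence `0 → K → F → M → 0` with `F` admissible
and `i + j = 2` there are connecting maps `δc : Hⁱ_c(M) → Hⁱ⁺¹_c(K)` and
`δ : Hʲ(K') → Hʲ⁺¹(M')` such that
`Hⁱ_c(M) → Hⁱ⁺¹_c(K) → Hⁱ⁺¹_c(F)` and `Hʲ(K') → Hʲ⁺¹(M') → Hʲ⁺¹(F')` are exact,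
`Hʲ(F') → Hʲ(K') → Hʲ⁺¹(M')` is zero, and `⟨δc a, b⟩_K = u * ⟨a, δ b⟩_M` for a scalar `u`. -/
def PTFunctor.Ladder {pkg : PTPackage p S} (fn : PTFunctor pkg) : Prop :=
  ∀ {K F M : Rep.{0, 0, 0} (ZMod p) GQ} (ι : K ⟶ F) (π : F ⟶ M), IsSES p ι π → IsAdm p S F →
    ∀ i j : ℕ, i + j = 2 →
      ∃ (δc : pkg.Hc i M →ₗ[ZMod p] pkg.Hc (i + 1) K)
        (δ : pkg.H j (D p K) →ₗ[ZMod p] pkg.H (j + 1) (D p M)) (u : ZMod p),
        (∀ a : pkg.Hc (i + 1) K, fn.Hcmap (i + 1) ι a = 0 → ∃ a', δc a' = a) ∧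
        (∀ b : pkg.H (j + 1) (D p M), fn.Hmap (j + 1) (dualHom p π) b = 0 → ∃ b', δ b' = b) ∧
        (∀ b : pkg.H j (D p F), δ (fn.Hmap j (dualHom p ι) b) = 0) ∧
        ∀ (a : pkg.Hc i M) (b : pkg.H j (D p K)),
          pkg.pair (i + 1) j K (δc a) b = u * pkg.pair i (j + 1) M a (δ b)

/-! ### Sums -/

namespace PTFunctor

variable {pkg : PTPackage p S} (fn : PTFunctor pkg)

theorem Hmap_zero (j : ℕ) {X Y : Rep.{0, 0, 0} (ZMod p) GQ} : fn.Hmap j (0 : X ⟶ Y) = 0 := by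
  have h := fn.Hmap_add j (0 : X ⟶ Y) 0
  rw [add_zero] at h
  exact left_eq_add.mp h

theorem Hcmap_zero (i : ℕ) {X Y : Rep.{0, 0, 0} (ZMod p) GQ} : fn.Hcmap i (0 : X ⟶ Y) = 0 := by
  have h := fn.Hcmap_add i (0 : X ⟶ Y) 0
  rw [add_zero] at h
  exact left_eq_add.mp h

theorem Hmap_sum (j : ℕ) {X Y : Rep.{0, 0, 0} (ZMod p) GQ} {ι : Type} (s : Finset ι)
    (f : ι → (X ⟶ Y)) : fn.Hmap j (∑ i ∈ s, f i) = ∑ i ∈ s, fn.Hmap j (f i) := by
  classical
  induction s using Finset.induction with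
  | empty => simp [Hmap_zero]
  | insert a s ha h => rw [Finset.sum_insert ha, Finset.sum_insert ha, fn.Hmap_add, h]

theorem Hcmap_sum (i : ℕ) {X Y : Rep.{0, 0, 0} (ZMod p) GQ} {ι : Type} (s : Finset ι)
    (f : ι → (X ⟶ Y)) : fn.Hcmap i (∑ t ∈ s, f t) = ∑ t ∈ s, fn.Hcmap i (f t) := by
  classical
  induction s using Finset.induction with
  | empty => simp [Hcmap_zero]
  | insert a s ha h => rw [Finset.sum_insert ha, Finset.sum_insert ha, fn.Hcmap_add, h]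

include fn

/-- Additivity of "`α` epi" over a finite direct sum. -/
theorem epi_of_total {ι : Type} [Fintype ι] {F : Rep.{0, 0, 0} (ZMod p) GQ}
    {X : ι → Rep.{0, 0, 0} (ZMod p) GQ} (inc : ∀ s, X s ⟶ F) (prj : ∀ s, F ⟶ X s)
    (htot : ∑ s, prj s ≫ inc s = 𝟙 F) (i j : ℕ) (h : ∀ s, pkg.Epi i j (X s)) :
    pkg.Epi i j F := by
  refine surjective_of_sum (fun s => fn.Hcmap i (inc s))
    (fun s => fn.Hmap j (dualHom p (prj s))) (fun s => fn.Hmap j (dualHom p (inc s)))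
    (pkg.pair i j F) (fun s => pkg.pair i j (X s)) (fun b => ?_)
    (fun s a b => fn.pair_natural i j (inc s) a b) h
  have e : ∑ s, fn.Hmap j (dualHom p (prj s)) ∘ₗ fn.Hmap j (dualHom p (inc s)) = LinearMap.id := by
    simp_rw [← fn.Hmap_comp, ← dualHom_comp]
    rw [← fn.Hmap_sum, ← dualHom_sum, htot, dualHom_id, fn.Hmap_id]
  have := congrArg (fun f : pkg.H j (D p F) →ₗ[ZMod p] pkg.H j (D p F) => f b) e
  simpa using this

/-- Additivity of "`α` mono" over a finite direct sum. -/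
theorem mono_of_total {ι : Type} [Fintype ι] {F : Rep.{0, 0, 0} (ZMod p) GQ}
    {X : ι → Rep.{0, 0, 0} (ZMod p) GQ} (inc : ∀ s, X s ⟶ F) (prj : ∀ s, F ⟶ X s)
    (htot : ∑ s, prj s ≫ inc s = 𝟙 F) (i j : ℕ) (h : ∀ s, pkg.Mono i j (X s)) :
    pkg.Mono i j F := by
  refine injective_of_sum (fun s => fn.Hcmap i (inc s)) (fun s => fn.Hcmap i (prj s))
    (fun s => fn.Hmap j (dualHom p (prj s)))
    (pkg.pair i j F) (fun s => pkg.pair i j (X s)) (fun a => ?_)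
    (fun s a b => (fn.pair_natural i j (prj s) a b).symm) h
  have e : ∑ s, fn.Hcmap i (inc s) ∘ₗ fn.Hcmap i (prj s) = LinearMap.id := by
    simp_rw [← fn.Hcmap_comp]
    rw [← fn.Hcmap_sum, htot, fn.Hcmap_id]
  have := congrArg (fun f : pkg.Hc i F →ₗ[ZMod p] pkg.Hc i F => f a) e
  simpa using this

/-- The four lemma along a short exact sequence. -/
theorem epi_of_ladder (hlad : fn.Ladder) {K F M : Rep.{0, 0, 0} (ZMod p) GQ} (ι : K ⟶ F)
    (π : F ⟶ M) (hses : IsSES p ι π) (hF : IsAdm p S F) (i j : ℕ) (hij : i + j = 2)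
    (h1 : pkg.Epi i (j + 1) F) (h3 : pkg.Epi (i + 1) j K) (h4 : pkg.Mono (i + 1) j F) :
    pkg.Epi i (j + 1) M := by
  obtain ⟨δc, δ, u, hA, hB, hB0, hcomp⟩ := hlad ι π hses hF i j hij
  exact surjective_of_four (fn.Hcmap i π) δc (fn.Hcmap (i + 1) ι)
    (fn.Hmap (j + 1) (dualHom p π)) δ (fn.Hmap j (dualHom p ι))
    (pkg.pair i (j + 1) F) (pkg.pair i (j + 1) M) (pkg.pair (i + 1) j K) (pkg.pair (i + 1) j F)
    hA hB hB0 u (fun a b => fn.pair_natural i (j + 1) π a b) hcomp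
    (fun a b => fn.pair_natural (i + 1) j ι a b) h1 h3 h4

end PTFunctor

/-- **C10**: the dévissage step of the top chain. -/
theorem step_of_ladder {pkg : PTPackage p S} (fn : PTFunctor pkg)
    (hL : LevelFieldStatement p S) (hlad : fn.Ladder) : pkg.Step := by
  intro M hM
  obtain ⟨L, hLf, n, F, inc, prj, π, htot, hF, hπ⟩ := exists_presentation hL M hM
  refine ⟨L, hLf, ?_⟩
  have hses : IsSES p (kerHom p π) π := isSES_kerHom π hπ
  have hK : IsAdm p S (kerRep p π) := isAdm_of_injective p S (kerHom p π) hses.inj hF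
  refine ⟨kerRep p π, hK, ?_, ?_⟩
  · intro h1 h3 h4
    exact fn.epi_of_ladder hlad (kerHom p π) π hses hF 2 0 rfl
      (fn.epi_of_total inc prj htot 2 1 fun _ => h1) h3
      (fn.mono_of_total inc prj htot 3 0 fun _ => h4)
  · intro h1 h3 h4
    exact fn.epi_of_ladder hlad (kerHom p π) π hses hF 1 1 rfl
      (fn.epi_of_total inc prj htot 1 2 fun _ => h1) h3
      (fn.mono_of_total inc prj htot 2 1 fun _ => h4)

end Fermat.Agent.S55.H12
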