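/-
S55 / Program C, package C10 (helper12): EXPORTS of the leaf (CD) in the shapes consumed by the
final assembly (`H62.s55_of_inv` / `H43.s55_of_pairing`), from (K1) of C9b and Shapiro
injectivity in degree 3:

* `h2SurjAdm_of_k1 : H43.H2SurjAdm p S`                         — item (5) of `s55_of_inv`;
* `isAdm_chi`      : `𝔽_p(χ)` (`= H62.chiRep p = H43.muRep p`) is admissible;
* `hs3_chi_eq_zero`: `H³(G_S, 𝔽_p(χ)) = 0` in the cochain model `H49.HS`, the input of
                     helper62's bridge to `H62.H3Statement p S` — item (2) of `s55_of_inv`.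
-/
import Fermat.Agent.S55.H12.H3Coind
import Fermat.Agent.S55.H43.C10Adm
import Fermat.Agent.S29.H81.CycloFrob

set_option autoImplicit false

open CategoryTheory groupCohomology ExtCitation

noncomputable section

namespace Fermat.Agent.S55.H12

open Fermat.Agent.S55.H70

variable {p : ℕ} [Fact p.Prime] {S : Finset Nat.Primes}

/-- **(CD)** in the shape of `H43.s55_of_pairing` / `H62.s55_of_inv`. -/
theorem h2SurjAdm_of_k1 (hpS : pPrime p ∈ S) (hsh : Fermat.Agent.S55.H99.ShInjStatement 3)
    (hk1 : K1Statement p S) : Fermat.Agent.S55.H43.H2SurjAdm p S :=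
  fun π hF _ hπ => h2Surj_of_k1 hpS hsh hk1 π hF hπ

/-- `𝔽_p(χ)`, the mod `p` cyclotomic character as a module, is admissible (`p ∈ S`). -/
theorem isAdm_chi (hpS : pPrime p ∈ S) :
    IsAdm p S ((Rep.trivial (ZMod p) GQ (ZMod p)).twist (cycloChar p)) := by
  refine ⟨(inferInstance : FiniteDimensional (ZMod p) (ZMod p)), fun m => ?_,
    fun q hq A hA g hg => ?_⟩
  · obtain ⟨L, hL, h1⟩ := Fermat.Agent.S29.H81.cycloChar_finiteLevel p
    refine ⟨L, hL, fun s hs => ?_⟩
    have hχ : cycloChar p s = 1 := h1 s ((IntermediateField.mem_fixingSubgroup_iff _ _).mp hs)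
    show ((cycloChar p s : (ZMod p)ˣ) : ZMod p) • m = m
    rw [hχ, Units.val_one, one_smul]
  · have hqp : (q : ℕ) ≠ p := by
      intro h
      apply hq
      have e : q = pPrime p := Subtype.ext h
      rw [e]
      exact hpS
    have hχ : cycloChar p g = 1 :=
      Fermat.Agent.S29.H81.cycloChar_of_mem_inertia q.2 hqp A hA hg
    refine LinearMap.ext fun m => ?_
    show ((cycloChar p g : (ZMod p)ˣ) : ZMod p) • m = m
    rw [hχ, Units.val_one, one_smul]

/-- `H³(G_S, 𝔽_p(χ)) = 0` in the cochain model, from (K1) and Shapiro injectivity in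
degree 3. -/
theorem hs3_chi_eq_zero (hpS : pPrime p ∈ S) (hsh : Fermat.Agent.S55.H99.ShInjStatement 3)
    (hk1 : K1Statement p S) :
    ∀ x : Fermat.Agent.S55.H49.HS S ((Rep.trivial (ZMod p) GQ (ZMod p)).twist (cycloChar p)) 3,
      x = 0 :=
  h3Vanishing_of_k1 hpS hsh hk1 _ (isAdm_chi hpS)

end Fermat.Agent.S55.H12
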