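/-
S55 / Program C, package C10 (helper12): THE LEAF (CD) FROM THE ARITHMETIC STATEMENT OF C9b.

With helper99's Shapiro injectivity in degree 3 (`H99.shInj_three`, proved) and the change of
coefficient ring of `H12/CoeffChange.lean`, the leaf (CD) of Route R and the vanishing of
`H³(G_S, 𝔽_p(χ))` follow from helper70's `H70.ArithStatement p S T` ALONE (through (K1) of
`H70.GSArith.main`).  In particular helper70's bridge leaf `H70.ShapiroInj3Statement p S` is not
needed.

* `k1Statement_of_arith   : ArithStatement p S T → K1Statement p S`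
* `h3Coind_of_arith       : ArithStatement p S T → H3CoindStatement p S`
* `h2SurjAdm_of_arith     : ArithStatement p S T → H43.H2SurjAdm p S`          (item (5) of the top)
* `hs3_chi_eq_zero_of_arith : ArithStatement p S T → ∀ x : HS S 𝔽_p(χ) 3, x = 0` (for item (2))
-/
import Fermat.Agent.S55.H12.CDExport
import Fermat.Agent.S55.H70.GSExports
import Fermat.Agent.S55.H99.Shapiro

set_option autoImplicit false

open CategoryTheory groupCohomology ExtCitation

noncomputable section

namespace Fermat.Agent.S55.H12

open Fermat.Agent.S55.H70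

variable {p : ℕ} [Fact p.Prime] {S : Finset Nat.Primes} {T : Type} [AddCommGroup T]

/-- (K1) in the shape consumed by (CD), from the arithmetic statement of C9b. -/
theorem k1Statement_of_arith (hpS : pPrime p ∈ S) (hA : ArithStatement p S T) :
    K1Statement p S := by
  intro E hE hμ x
  obtain ⟨A, hAg⟩ := hA E hE hμ
  exact (A.main hpS hAg).1 x

/-- The arithmetic leaf of (CD) from the arithmetic statement of C9b (no further leaf). -/
theorem h3Coind_of_arith (hpS : pPrime p ∈ S) (hA : ArithStatement p S T) :
    H3CoindStatement p S :=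
  h3Coind_of_k1 Fermat.Agent.S55.H99.shInj_three (k1Statement_of_arith hpS hA)

/-- **(CD2)** `H³(G_S, K) = 0` for every admissible `K`, from the arithmetic statement of C9b. -/
theorem h3Vanishing_of_arith (hpS : pPrime p ∈ S) (hA : ArithStatement p S T) :
    H3VanishingStatement p S :=
  h3Vanishing hpS (h3Coind_of_arith hpS hA)

/-- **(CD)** in the shape of `H43.s55_of_pairing` / `H62.s55_of_inv`, from the arithmetic
statement of C9b. -/
theorem h2SurjAdm_of_arith (hpS : pPrime p ∈ S) (hA : ArithStatement p S T) :
    Fermat.Agent.S55.H43.H2SurjAdm p S :=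
  h2SurjAdm_of_k1 hpS Fermat.Agent.S55.H99.shInj_three (k1Statement_of_arith hpS hA)

/-- `H³(G_S, 𝔽_p(χ)) = 0` in the cochain model, from the arithmetic statement of C9b. -/
theorem hs3_chi_eq_zero_of_arith (hpS : pPrime p ∈ S) (hA : ArithStatement p S T) :
    ∀ x : Fermat.Agent.S55.H49.HS S ((Rep.trivial (ZMod p) GQ (ZMod p)).twist (cycloChar p)) 3,
      x = 0 :=
  hs3_chi_eq_zero hpS Fermat.Agent.S55.H99.shInj_three (k1Statement_of_arith hpS hA)

end Fermat.Agent.S55.H12
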