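/-
S55 / Program C (helper12): CHANGE OF COEFFICIENT RING in level-constant cohomology, as MAPS.

For a `k`-representation `M` and a `k'`-representation `M'` of the same group and an additive
equivariant map `e : M →+ M'` (no linearity: `k`, `k'` are unrelated commutative rings):

* `cycMapAdd D M M' e he n : cyc (lcComplex D M) n →+ cyc (lcComplex D M') n`, `z ↦ e ∘ z`;
* `hlcMapAdd D M M' e he n : Hlc D M (n+1) →+ Hlc D M' (n+1)` with
  `hlcMapAdd_cls : hlcMapAdd (cls z) = cls (cycMapAdd z)` and `lcVal_cycMapAdd` (`rfl`);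
* `hlcAddEquiv D M M' e he n : Hlc D M (n+1) ≃+ Hlc D M' (n+1)` for an additive equivariant
  bijection `e : M ≃+ M'`, with `hlcAddEquiv_cls`, `hlcAddEquiv_symm_cls`.

Typical use: `k = ℤ`, `M = μ_p` and `k' = 𝔽_p`, `M' = 𝔽_p` over a field containing `μ_p`
(`muAddEquiv`, `hlcMuEquiv`).
-/
import Fermat.Agent.S55.H12.CoeffChange

set_option autoImplicit false

open CategoryTheory groupCohomology

noncomputable section

namespace Fermat.Agent.S55.H12

open Fermat.Agent.S55.H49

section Generic

variable {k k' : Type} [CommRing k] [CommRing k'] {G : Type} [Group G]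
variable (D : LevelDatum G) (M : Rep.{0} k G) (M' : Rep.{0} k' G) (e : M →+ M')
  (he : ∀ g m, e (M.ρ g m) = M'.ρ g (e m))

/-- `f ↦ e ∘ f` on level-constant cochains. -/
def lcCochainMapAdd (n : ℕ) : (lcComplex D M).X n →+ (lcComplex D M').X n where
  toFun f := (⟨fun g => e (lcValC f g),
    isLC_comp_addMonoidHom D M M' e he (show lcCochains D M n from f).2⟩ : lcCochains D M' n)
  map_zero' := by
    apply lcValC_injective
    funext g
    exact map_zero e
  map_add' f f' := by
    apply lcValC_injective
    funext g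
    exact map_add e _ _

theorem lcValC_lcCochainMapAdd (n : ℕ) (f : (lcComplex D M).X n) (g : Fin n → G) :
    lcValC (lcCochainMapAdd D M M' e he n f) g = e (lcValC f g) := rfl

/-- `f ↦ e ∘ f` commutes with the differentials. -/
theorem lcCochainMapAdd_d (n : ℕ) (f : (lcComplex D M).X n) :
    ((lcComplex D M').d n (n + 1)).hom (lcCochainMapAdd D M M' e he n f) =
      lcCochainMapAdd D M M' e he (n + 1) (((lcComplex D M).d n (n + 1)).hom f) := by
  apply lcValC_injective
  rw [Fermat.Agent.S55.H99.lcValC_d]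
  have key : (inhomogeneousCochains.d M' n).hom (fun g => e (lcValC f g)) =
      fun g => e ((inhomogeneousCochains.d M n).hom (lcValC f) g) :=
    d_comp_addMonoidHom M M' e he n (lcValC f)
  refine key.trans ?_
  funext g
  show e ((inhomogeneousCochains.d M n).hom (lcValC f) g) =
    e (lcValC (((lcComplex D M).d n (n + 1)).hom f) g)
  rw [Fermat.Agent.S55.H99.lcValC_d]

/-- `z ↦ e ∘ z` on level-constant cocycles. -/
def cycMapAdd (n : ℕ) : cyc (lcComplex D M) n →+ cyc (lcComplex D M') n where
  toFun z := ⟨lcCochainMapAdd D M M' e he n z.1, by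
    rw [mem_cyc, lcCochainMapAdd_d, mem_cyc.mp z.2, map_zero]⟩
  map_zero' := Subtype.ext (map_zero (lcCochainMapAdd D M M' e he n))
  map_add' z z' := Subtype.ext (map_add (lcCochainMapAdd D M M' e he n) z.1 z'.1)

theorem lcVal_cycMapAdd (n : ℕ) (z : cyc (lcComplex D M) n) (g : Fin n → G) :
    lcVal (cycMapAdd D M M' e he n z) g = e (lcVal z g) := rfl

theorem cycMapAdd_coe (n : ℕ) (z : cyc (lcComplex D M) n) :
    (cycMapAdd D M M' e he n z).1 = lcCochainMapAdd D M M' e he n z.1 := rfl

/-- The class map, as an additive map. -/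
def clsAdd (n : ℕ) : cyc (lcComplex D M) n →+ Hlc D M n :=
  (cls (lcComplex D M) n).hom.toAddMonoidHom

theorem clsAdd_apply (n : ℕ) (z : cyc (lcComplex D M) n) :
    clsAdd D M n z = (cls (lcComplex D M) n).hom z := rfl

theorem clsAdd_surjective (n : ℕ) : Function.Surjective (clsAdd D M n) :=
  cls_surjective (lcComplex D M) n

/-- **Change of coefficients on cohomology** (positive degrees), for an additive equivariant map
of the coefficients. -/
def hlcMapAdd (n : ℕ) : Hlc D M (n + 1) →+ Hlc D M' (n + 1) :=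
  (clsAdd D M (n + 1)).liftOfSurjective (clsAdd_surjective D M (n + 1))
    ⟨(clsAdd D M' (n + 1)).comp (cycMapAdd D M M' e he (n + 1)), by
      intro z hz
      rw [AddMonoidHom.mem_ker, clsAdd_apply] at hz
      obtain ⟨y, hy⟩ := (cls_eq_zero_iff (lcComplex D M) n z).mp hz
      rw [AddMonoidHom.mem_ker, AddMonoidHom.comp_apply, clsAdd_apply]
      refine (cls_eq_zero_iff (lcComplex D M') n _).mpr ⟨lcCochainMapAdd D M M' e he n y, ?_⟩
      rw [lcCochainMapAdd_d, hy]
      rfl⟩

theorem hlcMapAdd_cls (n : ℕ) (z : cyc (lcComplex D M) (n + 1)) :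
    hlcMapAdd D M M' e he n ((cls (lcComplex D M) (n + 1)).hom z) =
      (cls (lcComplex D M') (n + 1)).hom (cycMapAdd D M M' e he (n + 1) z) :=
  AddMonoidHom.liftOfRightInverse_comp_apply _ _ _ _ z

end Generic

section Equiv

variable {k k' : Type} [CommRing k] [CommRing k'] {G : Type} [Group G]
variable (D : LevelDatum G) (M : Rep.{0} k G) (M' : Rep.{0} k' G) (e : M ≃+ M')
  (he : ∀ g m, e (M.ρ g m) = M'.ρ g (e m))

include he in
theorem symm_equivariant (g : G) (m' : M') : e.symm (M'.ρ g m') = M.ρ g (e.symm m') := by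
  apply e.injective
  rw [he, e.apply_symm_apply, e.apply_symm_apply]

/-- **Change of coefficient ring**: an additive equivariant bijection of the coefficients induces
an additive isomorphism on level-constant cohomology in positive degrees. -/
def hlcAddEquiv (n : ℕ) : Hlc D M (n + 1) ≃+ Hlc D M' (n + 1) where
  toFun := hlcMapAdd D M M' e.toAddMonoidHom he n
  invFun := hlcMapAdd D M' M e.symm.toAddMonoidHom (symm_equivariant M M' e he) n
  left_inv x := by
    obtain ⟨z, rfl⟩ := cls_surjective (lcComplex D M) (n + 1) x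
    rw [hlcMapAdd_cls, hlcMapAdd_cls]
    congr 1
    apply lcVal_injective
    funext g
    exact e.symm_apply_apply _
  right_inv x := by
    obtain ⟨z, rfl⟩ := cls_surjective (lcComplex D M') (n + 1) x
    rw [hlcMapAdd_cls, hlcMapAdd_cls]
    congr 1
    apply lcVal_injective
    funext g
    exact e.apply_symm_apply _
  map_add' := map_add _

theorem hlcAddEquiv_cls (n : ℕ) (z : cyc (lcComplex D M) (n + 1)) :
    hlcAddEquiv D M M' e he n ((cls (lcComplex D M) (n + 1)).hom z) =
      (cls (lcComplex D M') (n + 1)).hom (cycMapAdd D M M' e.toAddMonoidHom he (n + 1) z) :=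
  hlcMapAdd_cls D M M' e.toAddMonoidHom he n z

theorem hlcAddEquiv_symm_cls (n : ℕ) (z : cyc (lcComplex D M') (n + 1)) :
    (hlcAddEquiv D M M' e he n).symm ((cls (lcComplex D M') (n + 1)).hom z) =
      (cls (lcComplex D M) (n + 1)).hom
        (cycMapAdd D M' M e.symm.toAddMonoidHom (symm_equivariant M M' e he) (n + 1) z) :=
  hlcMapAdd_cls D M' M e.symm.toAddMonoidHom (symm_equivariant M M' e he) n z

end Equiv

end Fermat.Agent.S55.H12
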