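/-
S55 / Program C (helper12): `𝔽_p ≅ μ_p` over a field containing `μ_p`, on level-constant
cohomology.

* `muAddEquiv ζ hζ : ZMod p ≃+ Mux p`, `a ↦ ζ ^ a` (`ζ` a primitive `p`-th root of unity in
  `ℚ̄ˣ`), with `val_muAddEquiv`;
* `hlcMuEquiv S E hμ ζ hζ n : Hlc (fieldDatum S E) 𝔽_p (n+1) ≃+ Hlc (fieldDatum S E) μ_p (n+1)`
  (`= H70.HMu p S E (n+1)`), for `E ∋ μ_p`, with the formula on classes `hlcMuEquiv_cls`:
  the class of a cocycle `z` goes to the class of `g ↦ ζ ^ z g`.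
-/
import Fermat.Agent.S55.H12.CoeffIso
import Fermat.Agent.S55.H12.H3Coind

set_option autoImplicit false

open CategoryTheory groupCohomology

noncomputable section

namespace Fermat.Agent.S55.H12

open Fermat.Agent.S55.H49 Fermat.Agent.S55.H42

variable {p : ℕ} [Fact p.Prime]

/-- `a ↦ ζ ^ a`, as an additive map `ℤ/p → μ_p`, for `ζ ^ p = 1`. -/
def muAddHom (ζ : (AlgebraicClosure ℚ)ˣ) (hζ : ζ ^ p = 1) : ZMod p →+ Mux p where
  toFun a := unitsRep.mk (ζ ^ a.val) (by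
    show (ζ ^ a.val) ^ p = 1
    rw [← pow_mul, mul_comm, pow_mul, hζ, one_pow])
  map_zero' := by
    apply unitsRep.val_injective
    rw [unitsRep.val_mk, ZMod.val_zero, pow_zero, unitsRep.val_zero]
  map_add' a b := by
    apply unitsRep.val_injective
    rw [unitsRep.val_add, unitsRep.val_mk, unitsRep.val_mk, unitsRep.val_mk, ← pow_add,
      ZMod.val_add]
    exact (pow_eq_pow_mod _ hζ).symm

theorem val_muAddHom (ζ : (AlgebraicClosure ℚ)ˣ) (hζ : ζ ^ p = 1) (a : ZMod p) :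
    unitsRep.val (muAddHom ζ hζ a) = ζ ^ a.val := rfl

theorem muAddHom_bijective (ζ : (AlgebraicClosure ℚ)ˣ) (hζ : IsPrimitiveRoot ζ p) :
    Function.Bijective (muAddHom ζ hζ.pow_eq_one) := by
  have hp0 : p ≠ 0 := (Fact.out : p.Prime).ne_zero
  have : NeZero p := ⟨hp0⟩
  have hfin : Finite (Mux p) := Nat.finite_of_card_ne_zero (by rw [natCard_mux]; exact hp0)
  refine Function.Injective.bijective_of_nat_card_le (fun a b hab => ?_) ?_
  · have h1 : ζ ^ a.val = ζ ^ b.val := congrArg unitsRep.val hab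
    exact ZMod.val_injective p (hζ.pow_inj (ZMod.val_lt a) (ZMod.val_lt b) h1)
  · rw [natCard_mux, Nat.card_zmod]

/-- **`ℤ/p ≃+ μ_p`**, `a ↦ ζ ^ a`, for a primitive `p`-th root of unity `ζ`. -/
def muAddEquiv (ζ : (AlgebraicClosure ℚ)ˣ) (hζ : IsPrimitiveRoot ζ p) : ZMod p ≃+ Mux p :=
  AddEquiv.ofBijective (muAddHom ζ hζ.pow_eq_one) (muAddHom_bijective ζ hζ)

theorem val_muAddEquiv (ζ : (AlgebraicClosure ℚ)ˣ) (hζ : IsPrimitiveRoot ζ p) (a : ZMod p) :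
    unitsRep.val (muAddEquiv ζ hζ a) = ζ ^ a.val := rfl

variable (S : Finset Nat.Primes) (E : IntermediateField ℚ (AlgebraicClosure ℚ))
  (hμ : ∀ ζ : AlgebraicClosure ℚ, ζ ^ p = 1 → ζ ∈ E)
  (ζ : (AlgebraicClosure ℚ)ˣ) (hζ : IsPrimitiveRoot ζ p)

include hμ in
/-- `a ↦ ζ ^ a` is `G_E`-equivariant from the trivial module, for `E ∋ μ_p`. -/
theorem muAddEquiv_equivariant (g : ↥E.fixingSubgroup)
    (m : Rep.trivial (ZMod p) ↥E.fixingSubgroup (ZMod p)) :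
    (show resF E (Mux p) from muAddEquiv ζ hζ
        ((Rep.trivial (ZMod p) ↥E.fixingSubgroup (ZMod p)).ρ g m)) =
      (resF E (Mux p)).ρ g (show resF E (Mux p) from muAddEquiv ζ hζ m) :=
  (resF_mux_trivial p E hμ g _).symm

/-- **`Hⁿ_lc(G_S(E), 𝔽_p) ≃+ Hⁿ_lc(G_S(E), μ_p)`** (`n ≥ 1`) for `E ∋ μ_p`, induced by
`a ↦ ζ ^ a`. -/
def hlcMuEquiv (n : ℕ) :
    Hlc (fieldDatum S E) (Rep.trivial (ZMod p) ↥E.fixingSubgroup (ZMod p)) (n + 1) ≃+
      Hlc (fieldDatum S E) (resF E (Mux p)) (n + 1) :=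
  hlcAddEquiv (fieldDatum S E) (Rep.trivial (ZMod p) ↥E.fixingSubgroup (ZMod p))
    (resF E (Mux p)) (show Rep.trivial (ZMod p) ↥E.fixingSubgroup (ZMod p) ≃+ resF E (Mux p) from
      muAddEquiv ζ hζ) (muAddEquiv_equivariant E hμ ζ hζ) n

/-- The class of a cocycle `z` goes to the class of the cocycle `g ↦ ζ ^ z g`. -/
theorem hlcMuEquiv_cls (n : ℕ)
    (z : cyc (lcComplex (fieldDatum S E) (Rep.trivial (ZMod p) ↥E.fixingSubgroup (ZMod p)))
      (n + 1)) :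
    ∃ z' : cyc (lcComplex (fieldDatum S E) (resF E (Mux p))) (n + 1),
      (∀ g, lcVal z' g = muAddEquiv ζ hζ (lcVal z g)) ∧
      hlcMuEquiv S E hμ ζ hζ n ((cls _ (n + 1)).hom z) = (cls _ (n + 1)).hom z' :=
  ⟨_, fun _ => rfl, hlcAddEquiv_cls _ _ _ _ _ n z⟩

/-- Conversely, the class of a `μ_p`-valued cocycle `z'` comes from the class of its
"logarithm". -/
theorem hlcMuEquiv_symm_cls (n : ℕ)
    (z' : cyc (lcComplex (fieldDatum S E) (resF E (Mux p))) (n + 1)) :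
    ∃ z : cyc (lcComplex (fieldDatum S E) (Rep.trivial (ZMod p) ↥E.fixingSubgroup (ZMod p)))
        (n + 1),
      (∀ g, lcVal z' g = muAddEquiv ζ hζ (lcVal z g)) ∧
      (hlcMuEquiv S E hμ ζ hζ n).symm ((cls _ (n + 1)).hom z') = (cls _ (n + 1)).hom z := by
  refine ⟨_, ?_, hlcAddEquiv_symm_cls _ _ _ _ _ n z'⟩
  intro g
  exact ((muAddEquiv ζ hζ).apply_symm_apply _).symm

end Fermat.Agent.S55.H12
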